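import Mathlib

/-!
# S22, piece (G): abstract finiteness

If a finitely generated `ℤ`-submodule `Λ` of the dual of a complex vector space `V` separates the
points of `V` and is stable under precomposition with all `T ∈ 𝒢 ⊆ End V`, then the `ℤ`-algebra
generated by `𝒢` is a finite `ℤ`-module (it embeds into `End_ℤ Λ`).
-/

set_option autoImplicit false

namespace Fermat.Agent.S22

theorem comp_mem_of_mem_adjoin {V : Type*} [AddCommGroup V] [Module ℂ V]
    (Λ : Submodule ℤ (Module.Dual ℂ V)) (𝒢 : Set (Module.End ℂ V))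
    (hstab : ∀ T ∈ 𝒢, ∀ l ∈ Λ, l ∘ₗ T ∈ Λ) {t : Module.End ℂ V}
    (ht : t ∈ Algebra.adjoin ℤ 𝒢) : ∀ l ∈ Λ, l ∘ₗ t ∈ Λ := by
  induction ht using Algebra.adjoin_induction with
  | mem T hT => exact hstab T hT
  | algebraMap r =>
    intro l hl
    have : l ∘ₗ (algebraMap ℤ (Module.End ℂ V) r) = r • l := by
      ext v
      simp
    rw [this]
    exact Λ.smul_mem r hl
  | add x y _ _ hx hy =>
    intro l hl
    rw [LinearMap.comp_add]
    exact Λ.add_mem (hx l hl) (hy l hl)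
  | mul x y _ _ hx hy =>
    intro l hl
    have : l ∘ₗ (x * y) = (l ∘ₗ x) ∘ₗ y := rfl
    rw [this]
    exact hy _ (hx l hl)

theorem finite_adjoin_of_stable_lattice {V : Type*} [AddCommGroup V] [Module ℂ V]
    (Λ : Submodule ℤ (Module.Dual ℂ V)) (hfg : Λ.FG)
    (hsep : ∀ v : V, (∀ l ∈ Λ, l v = 0) → v = 0)
    (𝒢 : Set (Module.End ℂ V)) (hstab : ∀ T ∈ 𝒢, ∀ l ∈ Λ, l ∘ₗ T ∈ Λ) :
    Module.Finite ℤ (Algebra.adjoin ℤ 𝒢) := by
  have : Module.Finite ℤ Λ := Module.Finite.iff_fg.mpr hfg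
  have : Module.Free ℤ Λ := Module.free_of_finite_type_torsion_free'
  have hst := fun (t : Algebra.adjoin ℤ 𝒢) => comp_mem_of_mem_adjoin Λ 𝒢 hstab t.2
  -- the action on `Λ`
  let Φ₀ : Algebra.adjoin ℤ 𝒢 → (Λ →ₗ[ℤ] Λ) := fun t =>
    { toFun := fun l => ⟨(l : Module.Dual ℂ V) ∘ₗ (t : Module.End ℂ V), hst t l l.2⟩
      map_add' := fun l l' => by
        apply Subtype.ext
        simp [LinearMap.add_comp]
      map_smul' := fun r l => by
        apply Subtype.ext
        simp [LinearMap.smul_comp] }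
  let Φ : Algebra.adjoin ℤ 𝒢 →+ (Λ →ₗ[ℤ] Λ) :=
    { toFun := Φ₀
      map_zero' := by
        ext l v
        simp [Φ₀]
      map_add' := fun t t' => by
        ext l v
        simp [Φ₀, LinearMap.comp_add] }
  have hinj : Function.Injective Φ.toIntLinearMap := by
    rw [← LinearMap.ker_eq_bot, LinearMap.ker_eq_bot']
    intro t ht
    apply Subtype.ext
    ext v
    apply hsep
    intro l hl
    have := congrArg (fun F : Λ →ₗ[ℤ] Λ => ((F ⟨l, hl⟩ : Λ) : Module.Dual ℂ V) v) ht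
    simpa [Φ, Φ₀] using this
  exact Module.Finite.of_injective Φ.toIntLinearMap hinj

end Fermat.Agent.S22
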