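import Mathlib

set_option autoImplicit false

open UpperHalfPlane hiding I
open Real Complex Derivative
open scoped Manifold MatrixGroups ModularForm Topology

namespace Fermat.Agent.S22

noncomputable section

/-- Iterates of the normalized derivative preserve holomorphy. -/
theorem mdiff_iterate_D {F : ℍ → ℂ} (hF : MDiff F) (n : ℕ) : MDiff (D^[n] F) := by
  induction n with
  | zero => simpa using hF
  | succ n ih =>
    rw [Function.iterate_succ_apply']
    exact normalizedDerivOfComplex_mdifferentiable ih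

/-- The automorphy factor `z ↦ c z + d` is holomorphic. -/
theorem mdiff_denom (g : GL (Fin 2) ℝ) : MDiff (fun z : ℍ => denom g z) := by
  rw [UpperHalfPlane.mdifferentiable_iff]
  have : DifferentiableOn ℂ (fun w : ℂ => (g 1 0 : ℂ) * w + (g 1 1 : ℂ)) upperHalfPlaneSet := by
    fun_prop
  refine this.congr fun w hw => ?_
  simp [Function.comp_apply, ofComplex_apply_of_im_pos hw, denom]

/-- The normalized derivative of the automorphy factor is constant. -/
theorem D_denom (g : GL (Fin 2) ℝ) :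
    D (fun z : ℍ => denom g z) = fun _ => (2 * π * I)⁻¹ * (g 1 0 : ℂ) := by
  ext z
  simp only [normalizedDerivOfComplex]
  have h : HasDerivAt (fun w : ℂ => (g 1 0 : ℂ) * w + (g 1 1 : ℂ)) (g 1 0 : ℂ) (z : ℂ) := by
    simpa using ((hasDerivAt_id (z : ℂ)).const_mul (g 1 0 : ℂ)).add_const (g 1 1 : ℂ)
  have hev : ((fun z : ℍ => denom g z) ∘ ofComplex) =ᶠ[𝓝 (z : ℂ)]
      fun w : ℂ => (g 1 0 : ℂ) * w + (g 1 1 : ℂ) := by
    filter_upwards [isOpen_upperHalfPlaneSet.mem_nhds z.im_pos] with w hw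
    simp [Function.comp_apply, ofComplex_apply_of_im_pos hw, denom]
  rw [(h.congr_of_eventuallyEq hev).deriv]

/-- Lowering the weight by one multiplies by `det⁻¹ * (c z + d)`. -/
theorem slash_sub_one_apply (k : ℤ) (F : ℍ → ℂ) {g : GL (Fin 2) ℝ} (hg : 0 < g.val.det) (z : ℍ) :
    (F ∣[k - 1] g) z = (g.val.det : ℂ)⁻¹ * denom g z * (F ∣[k] g) z := by
  have hdet : g.det.val = g.val.det := Matrix.GeneralLinearGroup.val_det_apply g
  have hdetℂ : (g.val.det : ℂ) ≠ 0 := Complex.ofReal_ne_zero.mpr hg.ne'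
  have hz := denom_ne_zero g z
  simp only [ModularForm.slash_apply, hdet, abs_of_pos hg]
  rw [show k - 1 - 1 = (k - 1) + (-1) by ring, show -(k - 1) = -k + 1 by ring,
    zpow_add₀ hdetℂ, zpow_add₀ hz, zpow_neg_one, zpow_one]
  ring

/-- Leibniz rule for iterated normalized derivatives of a product with a function whose
normalized derivative is constant. -/
theorem iterate_D_mul_of_D_const {l H : ℍ → ℂ} (hl : MDiff l) (hH : MDiff H) (c₀ : ℂ)
    (hDl : D l = fun _ => c₀) (m : ℕ) :
    D^[m + 1] (l * H) = l * D^[m + 1] H + (fun _ => ((m + 1 : ℕ) : ℂ) * c₀) * D^[m] H := by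
  induction m with
  | zero =>
    simp only [Function.iterate_one, Function.iterate_zero, id_eq, zero_add, Nat.cast_one,
      one_mul]
    rw [normalizedDerivOfComplex_mul l H hl hH, hDl]
    ring
  | succ m ih =>
    rw [Function.iterate_succ_apply' D (m + 1) (l * H), ih]
    have h1 : MDiff (D^[m + 1] H) := mdiff_iterate_D hH _
    have h2 : MDiff (D^[m] H) := mdiff_iterate_D hH _
    have hc : MDiff (fun _ : ℍ => ((m + 1 : ℕ) : ℂ) * c₀) := mdifferentiable_const
    rw [normalizedDerivOfComplex_add _ _ (hl.mul h1) (hc.mul h2),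
      normalizedDerivOfComplex_mul l _ hl h1, normalizedDerivOfComplex_mul _ _ hc h2, hDl,
      normalizedDerivOfComplex_const, ← Function.iterate_succ_apply' D (m + 1) H,
      ← Function.iterate_succ_apply' D m H]
    ext z
    simp only [Pi.add_apply, Pi.mul_apply, Pi.zero_apply]
    push_cast
    ring

/-- **Bol's identity** for the slash action of `GL₂(ℝ)⁺`. -/
theorem bol (n : ℕ) {F : ℍ → ℂ} (hF : MDiff F) {g : GL (Fin 2) ℝ} (hg : 0 < g.val.det) :
    D^[n] (F ∣[(1 - n : ℤ)] g) =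
      fun z => ((g.val.det : ℂ)⁻¹) ^ n * ((D^[n] F) ∣[(n + 1 : ℤ)] g) z := by
  induction n with
  | zero =>
    ext z
    simp
  | succ n ih =>
    -- write `F ∣[-n] g = l * H` with `l = denom g` and `H = det⁻¹ • F ∣[1 - n] g`
    have hHdiff : MDiff (F ∣[(1 - n : ℤ)] g) := hF.slash _ g
    set l : ℍ → ℂ := fun z => denom g z with hl
    set H : ℍ → ℂ := (g.val.det : ℂ)⁻¹ • (F ∣[(1 - n : ℤ)] g) with hH
    have hHd : MDiff H := hHdiff.const_smul _
    have hprod : (F ∣[(1 - (n + 1 : ℕ) : ℤ)] g) = l * H := by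
      ext z
      have := slash_sub_one_apply (1 - n : ℤ) F hg z
      rw [show (1 - ((n + 1 : ℕ) : ℤ)) = (1 - (n : ℤ)) - 1 by push_cast; ring, this]
      simp only [hl, hH, Pi.mul_apply, Pi.smul_apply, smul_eq_mul]
      ring
    rw [hprod, iterate_D_mul_of_D_const (mdiff_denom g) hHd _ (D_denom g) n]
    -- compute `D^[n] H` and `D^[n+1] H`
    have hDnH : D^[n] H = fun z => ((g.val.det : ℂ)⁻¹) ^ (n + 1) * ((D^[n] F) ∣[(n + 1 : ℤ)] g) z := by
      have : ∀ m : ℕ, D^[m] H = (g.val.det : ℂ)⁻¹ • D^[m] (F ∣[(1 - n : ℤ)] g) := by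
        intro m
        induction m with
        | zero => rfl
        | succ m ihm =>
          rw [Function.iterate_succ_apply', ihm, normalizedDerivOfComplex_smul _ _
            (mdiff_iterate_D hHdiff m), ← Function.iterate_succ_apply' D m]
      rw [this n, ih]
      ext z
      simp only [Pi.smul_apply, smul_eq_mul]
      ring
    have hDn1H : D^[n + 1] H = fun z => ((g.val.det : ℂ)⁻¹) ^ (n + 1) *
        ((g.val.det : ℂ)⁻¹ * ((D^[n + 1] F) ∣[(n + 1 + 2 : ℤ)] g) z -
          ((n + 1 : ℤ) : ℂ) * (2 * π * I)⁻¹ * (g 1 0 / denom g z) *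
            ((D^[n] F) ∣[(n + 1 : ℤ)] g) z) := by
      rw [Function.iterate_succ_apply', hDnH]
      have hG : MDiff ((D^[n] F) ∣[(n + 1 : ℤ)] g) := (mdiff_iterate_D hF n).slash _ g
      have : (fun z => ((g.val.det : ℂ)⁻¹) ^ (n + 1) * ((D^[n] F) ∣[(n + 1 : ℤ)] g) z) =
          (((g.val.det : ℂ)⁻¹) ^ (n + 1)) • ((D^[n] F) ∣[(n + 1 : ℤ)] g) := by
        ext z; simp
      rw [this, normalizedDerivOfComplex_smul _ _ hG,
        normalizedDerivOfComplex_slash (mdiff_iterate_D hF n) hg,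
        ← Function.iterate_succ_apply' D n F]
      ext z
      simp only [Pi.smul_apply, smul_eq_mul]
    rw [hDn1H, hDnH]
    ext z
    have hz := denom_ne_zero g z
    have hw := slash_sub_one_apply (n + 1 + 2 : ℤ) (D^[n + 1] F) hg z
    rw [show ((n : ℤ) + 1 + 2 - 1) = ((n + 1 : ℕ) : ℤ) + 1 by push_cast; ring] at hw
    simp only [Pi.add_apply, Pi.mul_apply]
    rw [hw]
    push_cast
    field_simp
    ring

/-- Bol's identity for determinant one. -/
theorem bol_of_det_eq_one (n : ℕ) {F : ℍ → ℂ} (hF : MDiff F) {g : GL (Fin 2) ℝ}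
    (hg : g.val.det = 1) :
    D^[n] (F ∣[(1 - n : ℤ)] g) = (D^[n] F) ∣[(n + 1 : ℤ)] g := by
  rw [bol n hF (by rw [hg]; exact one_pos)]
  ext z
  simp [hg]

end

end Fermat.Agent.S22
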