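import Mathlib
import Fermat.Prelude.Def_CuspForm_HeckeAlgebra

/-!
# S22: shared definitions for the Eichler-integral / period-polynomial proof

* `IsEichler m f F` : `F` is a decaying `m`-fold `D`-primitive of `f`
  (`D = (2πi)⁻¹ d/dz` is Mathlib's `Derivative.normalizedDerivOfComplex`).
* `polyAct n A P` : the integral action of a `2 × 2` integer matrix `A = !![a, b; c, d]` on
  polynomials of degree `≤ n`:  `P ↦ ∑_{j ≤ n} P_j (aX+b)^j (cX+d)^(n-j)`.
-/

set_option autoImplicit false

namespace Fermat.Agent.S22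

open UpperHalfPlane hiding I
open Complex Derivative Polynomial
open scoped Manifold MatrixGroups ModularForm Topology

/-- `F` is an *Eichler integral* of `f` of order `m`: a holomorphic function on `ℍ`, tending to
`0` at `i∞`, with `D^m F = f`. (It is unique, see `IsEichler.unique`; it exists as soon as `f` is
holomorphic, periodic and zero at `i∞`.) -/
structure IsEichler (m : ℕ) (f F : ℍ → ℂ) : Prop where
  mdiff : MDiff F
  zero_at : IsZeroAtImInfty F
  iter : D^[m] F = f

/-- The integral action of a `2 × 2` integer matrix `A = !![a, b; c, d]` on polynomials of degree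
`≤ n`: `P ↦ ∑_{j ≤ n} P_j (aX+b)^j (cX+d)^(n-j)`. For `det A > 0` and `n = m - 1` this is
`(det A)^m • (P ∣[1 - m] A)` (as functions on `ℍ`). -/
noncomputable def polyAct (n : ℕ) (A : Matrix (Fin 2) (Fin 2) ℤ) (P : ℂ[X]) : ℂ[X] :=
  ∑ j ∈ Finset.range (n + 1), C (P.coeff j) *
    (C (A 0 0 : ℂ) * X + C (A 0 1 : ℂ)) ^ j * (C (A 1 0 : ℂ) * X + C (A 1 1 : ℂ)) ^ (n - j)

end Fermat.Agent.S22
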