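import Mathlib
import Fermat.Prelude.Def_ModularForm_HeckeOperator
import Fermat.Prelude.Thm_ModularForm_heckeT_slash_eq_self_of_mem_Gamma0
import Fermat.Prelude.Thm_ModularForm_isBoundedAtImInfty_heckeT
import Fermat.Agent.S22.Bol
import Fermat.Agent.S22.Defs

/-!
# S22, piece (F): Hecke operators and Eichler integrals / period functions

Everything here is at the level of functions `ℍ → ℂ`; no dependence on `S22/Defs.lean`.
-/

set_option autoImplicit false

open UpperHalfPlane hiding I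
open Real Complex Derivative ModularForm
open scoped Manifold MatrixGroups ModularForm Topology

namespace Fermat.Agent.S22

noncomputable section

/-! ## Linearity of iterated derivatives -/

theorem iterD_zero (n : ℕ) : D^[n] (0 : ℍ → ℂ) = 0 := by
  induction n with
  | zero => rfl
  | succ n ih =>
    rw [Function.iterate_succ_apply', ih]
    exact normalizedDerivOfComplex_const 0

theorem iterD_add {F G : ℍ → ℂ} (hF : MDiff F) (hG : MDiff G) (n : ℕ) :
    D^[n] (F + G) = D^[n] F + D^[n] G := by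
  induction n with
  | zero => rfl
  | succ n ih =>
    rw [Function.iterate_succ_apply', Function.iterate_succ_apply', Function.iterate_succ_apply',
      ih, normalizedDerivOfComplex_add _ _ (mdiff_iterate_D hF n) (mdiff_iterate_D hG n)]

theorem iterD_smul (c : ℂ) {F : ℍ → ℂ} (hF : MDiff F) (n : ℕ) :
    D^[n] (c • F) = c • D^[n] F := by
  induction n with
  | zero => rfl
  | succ n ih =>
    rw [Function.iterate_succ_apply', Function.iterate_succ_apply', ih,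
      normalizedDerivOfComplex_smul _ _ (mdiff_iterate_D hF n)]

theorem mdiff_finset_sum {ι : Type*} (s : Finset ι) (F : ι → ℍ → ℂ) (hF : ∀ i ∈ s, MDiff (F i)) :
    MDiff (∑ i ∈ s, F i) :=
  Finset.sum_induction _ (fun g : ℍ → ℂ => MDiff g) (fun _ _ ha hb => ha.add hb)
    mdifferentiable_const hF

theorem iterD_finset_sum {ι : Type*} (s : Finset ι) (F : ι → ℍ → ℂ) (hF : ∀ i ∈ s, MDiff (F i))
    (n : ℕ) : D^[n] (∑ i ∈ s, F i) = ∑ i ∈ s, D^[n] (F i) := by
  classical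
  induction s using Finset.induction_on with
  | empty => simpa using iterD_zero n
  | insert a s ha ih =>
    rw [Finset.sum_insert ha, Finset.sum_insert ha,
      iterD_add (hF a (Finset.mem_insert_self a s))
        (mdiff_finset_sum s F fun i hi => hF i (Finset.mem_insert_of_mem hi)) n,
      ih fun i hi => hF i (Finset.mem_insert_of_mem hi)]

/-! ## Regularity of Hecke operators on functions -/

theorem heckeMatrix_val_one_zero (p j : ℕ) :
    ((heckeMatrix p j : GL (Fin 2) ℝ) : Matrix (Fin 2) (Fin 2) ℝ) 1 0 = 0 := by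
  rcases eq_or_ne p 0 with rfl | hp
  · simp
  · rw [val_heckeMatrix hp]; rfl

theorem heckeDiagMatrix_val_one_zero (p : ℕ) :
    ((heckeDiagMatrix p : GL (Fin 2) ℝ) : Matrix (Fin 2) (Fin 2) ℝ) 1 0 = 0 := by
  rcases eq_or_ne p 0 with rfl | hp
  · simp
  · rw [val_heckeDiagMatrix hp]; rfl

theorem mdiff_heckeU (k : ℤ) (p : ℕ) {F : ℍ → ℂ} (hF : MDiff F) : MDiff (heckeU k p F) :=
  mdiff_finset_sum _ _ fun _ _ => hF.slash k _

theorem mdiff_heckeT (k : ℤ) (p : ℕ) {F : ℍ → ℂ} (hF : MDiff F) : MDiff (heckeT k p F) :=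
  (mdiff_heckeU k p hF).add (hF.slash k _)

theorem isZeroAtImInfty_heckeU' (k : ℤ) (p : ℕ) {F : ℍ → ℂ} (hF : IsZeroAtImInfty F) :
    IsZeroAtImInfty (heckeU k p F) :=
  Finset.sum_induction _ (fun g : ℍ → ℂ => IsZeroAtImInfty g)
    (fun _ _ ha hb => ha.add hb) (Filter.zero_zeroAtFilter atImInfty)
    (fun j _ => hF.slash k (heckeMatrix_val_one_zero p j))

theorem isZeroAtImInfty_heckeT' (k : ℤ) (p : ℕ) {F : ℍ → ℂ} (hF : IsZeroAtImInfty F) :
    IsZeroAtImInfty (heckeT k p F) :=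
  (isZeroAtImInfty_heckeU' k p hF).add (hF.slash k (heckeDiagMatrix_val_one_zero p))

/-! ## Hecke operators commute with `D^[m]` (Bol) -/

theorem iterD_slash_heckeMatrix (m : ℕ) {p : ℕ} (hp : p ≠ 0) (j : ℕ) {F : ℍ → ℂ} (hF : MDiff F) :
    D^[m] ((p : ℂ) ^ m • (F ∣[(1 - m : ℤ)] heckeMatrix p j)) =
      (D^[m] F) ∣[(m + 1 : ℤ)] heckeMatrix p j := by
  have hp' : (p : ℂ) ≠ 0 := by exact_mod_cast hp
  have hdet : (heckeMatrix p j).val.det = (p : ℝ) := by
    rw [← Matrix.GeneralLinearGroup.val_det_apply, det_heckeMatrix hp]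
  rw [iterD_smul _ (hF.slash _ _) m, bol m hF (g := heckeMatrix p j)
    (by rw [hdet]; exact_mod_cast Nat.pos_of_ne_zero hp)]
  ext z
  simp only [Pi.smul_apply, smul_eq_mul, hdet, Complex.ofReal_natCast]
  rw [← mul_assoc, ← mul_pow, mul_inv_cancel₀ hp', one_pow, one_mul]

theorem iterD_slash_heckeDiagMatrix (m : ℕ) {p : ℕ} (hp : p ≠ 0) {F : ℍ → ℂ} (hF : MDiff F) :
    D^[m] ((p : ℂ) ^ m • (F ∣[(1 - m : ℤ)] heckeDiagMatrix p)) =
      (D^[m] F) ∣[(m + 1 : ℤ)] heckeDiagMatrix p := by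
  have hp' : (p : ℂ) ≠ 0 := by exact_mod_cast hp
  have hdet : (heckeDiagMatrix p).val.det = (p : ℝ) := by
    rw [← Matrix.GeneralLinearGroup.val_det_apply, det_heckeDiagMatrix hp]
  rw [iterD_smul _ (hF.slash _ _) m, bol m hF (g := heckeDiagMatrix p)
    (by rw [hdet]; exact_mod_cast Nat.pos_of_ne_zero hp)]
  ext z
  simp only [Pi.smul_apply, smul_eq_mul, hdet, Complex.ofReal_natCast]
  rw [← mul_assoc, ← mul_pow, mul_inv_cancel₀ hp', one_pow, one_mul]

theorem iterD_heckeU (m : ℕ) {p : ℕ} (hp : p ≠ 0) {F : ℍ → ℂ} (hF : MDiff F) :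
    D^[m] ((p : ℂ) ^ m • heckeU (1 - m : ℤ) p F) = heckeU (m + 1 : ℤ) p (D^[m] F) := by
  rw [heckeU_def, heckeU_def, Finset.smul_sum,
    iterD_finset_sum _ _ (fun j _ => (hF.slash _ _).const_smul _) m]
  exact Finset.sum_congr rfl fun j _ => iterD_slash_heckeMatrix m hp j hF

theorem iterD_heckeT (m : ℕ) {p : ℕ} (hp : p ≠ 0) {F : ℍ → ℂ} (hF : MDiff F) :
    D^[m] ((p : ℂ) ^ m • heckeT (1 - m : ℤ) p F) = heckeT (m + 1 : ℤ) p (D^[m] F) := by
  rw [heckeT_eq_heckeU_add, heckeT_eq_heckeU_add, smul_add,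
    iterD_add ((mdiff_heckeU _ _ hF).const_smul _) ((hF.slash _ _).const_smul _) m,
    iterD_heckeU m hp hF, iterD_slash_heckeDiagMatrix m hp hF]

/-! ## The period relation for `T_p` and `U_p` (function level) -/

section PeriodRelation

open P2MW.S_ModularForm_heckeT_slash_eq_self_of_mem_Gamma0.ModularForm.HeckeSlashInvariance
open Matrix.SpecialLinearGroup

theorem heckeT_slash_sub_eq_sum {N : ℕ} (k : ℤ) {p : ℕ} [Fact p.Prime] (hpN : ¬ p ∣ N)
    (γ : SL(2, ℤ)) (hγ : γ ∈ CongruenceSubgroup.Gamma0 N) :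
    ∃ g : OnePoint (ZMod p) → SL(2, ℤ), (∀ x, g x ∈ CongruenceSubgroup.Gamma0 N) ∧
      ∀ F : ℍ → ℂ, heckeT k p F ∣[k] mapGL ℝ γ - heckeT k p F =
        ∑ x : OnePoint (ZMod p),
          (F ∣[k] mapGL ℝ (g x) - F) ∣[k] heckeRep p (redMatrix p γ • x) := by
  have hcN : (N : ℤ) ∣ γ 1 0 :=
    (ZMod.intCast_zmod_eq_zero_iff_dvd _ _).mp (CongruenceSubgroup.Gamma0_mem.mp hγ)
  choose g hg hmul using fun x => heckeRep_mul hpN γ hcN x
  refine ⟨g, fun x => CongruenceSubgroup.Gamma0_mem.mpr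
    ((ZMod.intCast_zmod_eq_zero_iff_dvd _ _).mpr (hg x)), fun F => ?_⟩
  have h1 : heckeT k p F ∣[k] mapGL ℝ γ =
      ∑ x : OnePoint (ZMod p), (F ∣[k] mapGL ℝ (g x)) ∣[k] heckeRep p (redMatrix p γ • x) := by
    rw [heckeT_eq_sum_onePoint k F, SlashAction.sum_slash]
    refine Finset.sum_congr rfl fun x _ => ?_
    rw [← SlashAction.slash_mul, hmul x, SlashAction.slash_mul]
  have h2 : heckeT k p F =
      ∑ x : OnePoint (ZMod p), F ∣[k] heckeRep p (redMatrix p γ • x) := by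
    rw [heckeT_eq_sum_onePoint k F]
    exact (Equiv.sum_comp (MulAction.toPerm (redMatrix p γ))
      (fun x => F ∣[k] heckeRep p x)).symm
  rw [h1]
  conv_lhs => rw [h2]
  rw [← Finset.sum_sub_distrib]
  refine Finset.sum_congr rfl fun x _ => ?_
  rw [sub_eq_add_neg, sub_eq_add_neg, SlashAction.add_slash, SlashAction.neg_slash]

theorem heckeU_slash_sub_eq_sum {N : ℕ} (k : ℤ) {p : ℕ} [NeZero p] (hpN : p ∣ N)
    (γ : SL(2, ℤ)) (hγ : γ ∈ CongruenceSubgroup.Gamma0 N) :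
    ∃ (g : ZMod p → SL(2, ℤ)) (σ : Equiv.Perm (ZMod p)),
      (∀ x, g x ∈ CongruenceSubgroup.Gamma0 N) ∧
      ∀ F : ℍ → ℂ, heckeU k p F ∣[k] mapGL ℝ γ - heckeU k p F =
        ∑ x : ZMod p, (F ∣[k] mapGL ℝ (g x) - F) ∣[k] heckeMatrix p (σ x).val := by
  have hcN : (N : ℤ) ∣ γ 1 0 :=
    (ZMod.intCast_zmod_eq_zero_iff_dvd _ _).mp (CongruenceSubgroup.Gamma0_mem.mp hγ)
  have hc : (p : ℤ) ∣ γ 1 0 := (Int.natCast_dvd_natCast.mpr hpN).trans hcN
  choose g hg hmul using fun x => heckeMatrix_mul_of_dvd γ hc x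
  refine ⟨g, affinePerm γ ((ZMod.intCast_zmod_eq_zero_iff_dvd _ _).mpr hc), fun x => ?_,
    fun F => ?_⟩
  · rw [CongruenceSubgroup.Gamma0_mem, hg x]
    push_cast
    rw [CongruenceSubgroup.Gamma0_mem.mp hγ, mul_zero]
  set σ := affinePerm γ ((ZMod.intCast_zmod_eq_zero_iff_dvd _ _).mpr hc) with hσ
  have h1 : heckeU k p F ∣[k] mapGL ℝ γ =
      ∑ x : ZMod p, (F ∣[k] mapGL ℝ (g x)) ∣[k] heckeMatrix p (σ x).val := by
    rw [heckeU_eq_sum_zmod k F, SlashAction.sum_slash]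
    refine Finset.sum_congr rfl fun x _ => ?_
    rw [← SlashAction.slash_mul, hmul x, SlashAction.slash_mul]
  have h2 : heckeU k p F = ∑ x : ZMod p, F ∣[k] heckeMatrix p (σ x).val := by
    rw [heckeU_eq_sum_zmod k F]
    exact (Equiv.sum_comp σ (fun x => F ∣[k] heckeMatrix p x.val)).symm
  rw [h1]
  conv_lhs => rw [h2]
  rw [← Finset.sum_sub_distrib]
  refine Finset.sum_congr rfl fun x _ => ?_
  rw [sub_eq_add_neg, sub_eq_add_neg, SlashAction.add_slash, SlashAction.neg_slash]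

end PeriodRelation

/-! ## Eichler integrals of Hecke images -/

theorem IsEichler.heckeT {m : ℕ} {f F : ℍ → ℂ} (h : IsEichler m f F) {p : ℕ} (hp : p ≠ 0) :
    IsEichler m (heckeT (m + 1 : ℤ) p f) ((p : ℂ) ^ m • heckeT (1 - m : ℤ) p F) where
  mdiff := (mdiff_heckeT _ _ h.mdiff).const_smul _
  zero_at := (isZeroAtImInfty_heckeT' _ _ h.zero_at).smul _
  iter := by rw [iterD_heckeT m hp h.mdiff, h.iter]

theorem IsEichler.heckeU {m : ℕ} {f F : ℍ → ℂ} (h : IsEichler m f F) {p : ℕ} (hp : p ≠ 0) :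
    IsEichler m (heckeU (m + 1 : ℤ) p f) ((p : ℂ) ^ m • heckeU (1 - m : ℤ) p F) where
  mdiff := (mdiff_heckeU _ _ h.mdiff).const_smul _
  zero_at := (isZeroAtImInfty_heckeU' _ _ h.zero_at).smul _
  iter := by rw [iterD_heckeU m hp h.mdiff, h.iter]

end

end Fermat.Agent.S22
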