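import Mathlib
import Fermat.Agent.S22.Defs

set_option autoImplicit false

open UpperHalfPlane hiding I
open Real Complex Derivative Filter Function
open scoped Manifold MatrixGroups ModularForm Topology

/-!
# S22 (A): existence of Eichler integrals

A holomorphic `h`-periodic function on `ℍ` vanishing at `i∞` has a `D`-primitive with the same
properties (`exists_primitive`), hence Eichler integrals of every order (`exists_isEichler`).
-/

namespace Fermat.Agent.S22

local notation "𝕢" => Periodic.qParam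

theorem hasDerivAt_qParam (h : ℝ) (z : ℂ) :
    HasDerivAt (𝕢 h) (2 * π * I / h * 𝕢 h z) z := by
  unfold Periodic.qParam
  have : HasDerivAt (fun w : ℂ => 2 * π * I * w / h) (2 * π * I / h) z := by
    have := ((hasDerivAt_id z).const_mul (2 * π * I)).div_const (h : ℂ)
    simpa using this
  exact this.cexp.congr_deriv (by ring)

theorem qParam_add_period {h : ℝ} (hh : h ≠ 0) (z : ℂ) : 𝕢 h (z + h) = 𝕢 h z := by
  unfold Periodic.qParam
  have : 2 * π * I * (z + h) / h = 2 * π * I * z / h + 2 * π * I := by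
    have : (h : ℂ) ≠ 0 := by exact_mod_cast hh
    field_simp
  rw [this, Complex.exp_add, Complex.exp_two_pi_mul_I, mul_one]

theorem exists_primitive {g : ℍ → ℂ} {h : ℝ} (hh : 0 < h) (hg : MDiff g)
    (hper : Periodic (g ∘ ofComplex) h) (h0 : IsZeroAtImInfty g) :
    ∃ G : ℍ → ℂ, MDiff G ∧ Periodic (G ∘ ofComplex) h ∧ IsZeroAtImInfty G ∧ D G = g := by
  have hbdd : IsBoundedAtImInfty g := h0.isBoundedAtImInfty
  set Ψ := cuspFunction h g with hΨ
  have hΨd : DifferentiableOn ℂ Ψ (Metric.ball 0 1) :=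
    differentiableOn_cuspFunction_ball hh hper hg hbdd
  have hΨ0 : Ψ 0 = 0 := h0.cuspFunction_apply_zero hh
  set Θ := dslope Ψ 0 with hΘ
  have hΘd : DifferentiableOn ℂ Θ (Metric.ball 0 1) :=
    (differentiableOn_dslope (Metric.ball_mem_nhds 0 one_pos)).mpr hΨd
  obtain ⟨Λ, hΛ0, hΛ⟩ := (hΘd.isExactOn_ball).with_val_at 0 0
  have hhC : (h : ℂ) ≠ 0 := by exact_mod_cast hh.ne'
  have h2pi : (2 * π * I : ℂ) ≠ 0 := by simp [Real.pi_ne_zero, Complex.I_ne_zero]
  -- the key derivative computation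
  have key : ∀ z : ℂ, ∀ hz : 0 < z.im,
      HasDerivAt (fun w => (h : ℂ) * Λ (𝕢 h w)) (2 * π * I * g ⟨z, hz⟩) z := by
    intro z hz
    have hq : 𝕢 h z ∈ Metric.ball (0 : ℂ) 1 := by
      simpa using Periodic.norm_qParam_lt_one hh hz
    have h1 := (hΛ _ hq).comp z (hasDerivAt_qParam h z)
    have h2 := h1.const_mul (h : ℂ)
    have h3 : Θ (𝕢 h z) * 𝕢 h z = g ⟨z, hz⟩ := by
      have := sub_smul_dslope Ψ 0 (𝕢 h z)
      rw [hΨ0, sub_zero, sub_zero, smul_eq_mul] at this
      rw [mul_comm, this]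
      exact eq_cuspFunction ⟨z, hz⟩ hh.ne' hper
    refine h2.congr_deriv ?_
    rw [← h3]
    field_simp
  set G : ℍ → ℂ := fun τ => (h : ℂ) * Λ (𝕢 h τ) with hG
  have hGev : ∀ z : ℂ, 0 < z.im → (G ∘ ofComplex) =ᶠ[𝓝 z] fun w => (h : ℂ) * Λ (𝕢 h w) := by
    intro z hz
    filter_upwards [isOpen_upperHalfPlaneSet.mem_nhds hz] with w hw
    simp [hG, ofComplex_apply_of_im_pos hw]
  have hGd : ∀ z : ℂ, ∀ hz : 0 < z.im,
      HasDerivAt (G ∘ ofComplex) (2 * π * I * g ⟨z, hz⟩) z := fun z hz =>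
    (key z hz).congr_of_eventuallyEq (hGev z hz)
  refine ⟨G, ?_, ?_, ?_, ?_⟩
  · rw [UpperHalfPlane.mdifferentiable_iff]
    intro z hz
    exact (hGd z hz).differentiableAt.differentiableWithinAt
  · intro w
    by_cases hw : 0 < im w
    · have hw' : 0 < im (w + h) := by simpa using hw
      simp only [comp_apply, ofComplex_apply_of_im_pos hw', ofComplex_apply_of_im_pos hw, hG]
      simp [qParam_add_period hh.ne']
    · have hw1 : im w ≤ 0 := not_lt.mp hw
      have hw' : im (w + h) ≤ 0 := by simpa using hw1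
      simp [ofComplex_apply_of_im_nonpos hw', ofComplex_apply_of_im_nonpos hw1]
  · have hΛc : ContinuousAt Λ 0 := (hΛ 0 (by simp)).continuousAt
    have h1 : Tendsto (fun τ : ℍ => Λ (𝕢 h τ)) atImInfty (𝓝 (Λ 0)) :=
      hΛc.tendsto.comp (qParam_tendsto_atImInfty hh)
    rw [hΛ0] at h1
    have h2 := h1.const_mul (h : ℂ)
    rw [mul_zero] at h2
    exact h2
  · ext z
    simp only [normalizedDerivOfComplex]
    rw [(hGd z z.im_pos).deriv]
    field_simp

/-- **Existence of Eichler integrals**: a holomorphic, `h`-periodic function on `ℍ` vanishing at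
`i∞` has an `m`-fold `D`-primitive with the same properties. -/
theorem exists_isEichler (m : ℕ) {f : ℍ → ℂ} {h : ℝ} (hh : 0 < h) (hf : MDiff f)
    (hper : Periodic (f ∘ ofComplex) h) (h0 : IsZeroAtImInfty f) :
    ∃ F : ℍ → ℂ, IsEichler m f F ∧ Periodic (F ∘ ofComplex) h := by
  induction m generalizing f with
  | zero => exact ⟨f, ⟨hf, h0, rfl⟩, hper⟩
  | succ m ih =>
    obtain ⟨G, hGd, hGper, hG0, hDG⟩ := exists_primitive hh hf hper h0
    obtain ⟨F, hF, hFper⟩ := ih hGd hGper hG0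
    refine ⟨F, ⟨hF.mdiff, hF.zero_at, ?_⟩, hFper⟩
    rw [Function.iterate_succ', Function.comp_apply, hF.iter, hDG]

end Fermat.Agent.S22
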