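import Mathlib
import Fermat.Agent.S22.Defs

/-!
# S22, piece (D): finite generation

* `gamma0_fg` : `Γ₀(N)` is a finitely generated group.
* `cocycle_mem_closure`, `closure_cocycle_eq`, `cocycle_span_fg` : the abstract cocycle lemma: the
  additive group generated by the coordinates of a cocycle with integer-matrix action is generated
  by the values on group generators.
* `polyActMat` : the integer matrices of the action `polyAct` (from `Defs.lean`) of integer
  `2 × 2` matrices on polynomials of degree `≤ m`; `coeff_polyAct`, `eval_polyAct`,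
  `eval_polyAct_of_ne_zero`, linearity of `polyAct`.
-/

set_option autoImplicit false

open scoped MatrixGroups

namespace Fermat.Agent.S22

/-- `SL(2, ℤ)` is a finitely generated group. -/
instance sl2Z_fg : Group.FG SL(2, ℤ) := by
  classical
  refine ⟨⟨{ModularGroup.S, ModularGroup.T}, ?_⟩⟩
  simpa using SpecialLinearGroup.SL2Z_generators

/-- `Γ₀(N)` is a finitely generated group (Schreier). -/
theorem gamma0_fg (N : ℕ) [NeZero N] : Group.FG (CongruenceSubgroup.Gamma0 N) :=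
  Subgroup.fg_of_index_ne_zero _

/-- Integer-matrix action on tuples in an additive commutative group. -/
def intMulVec {n : ℕ} {D : Type*} [AddCommGroup D] (M : Matrix (Fin n) (Fin n) ℤ)
    (w : Fin n → D) : Fin n → D := fun i => ∑ j, M i j • w j

theorem intMulVec_apply {n : ℕ} {D : Type*} [AddCommGroup D] (M : Matrix (Fin n) (Fin n) ℤ)
    (w : Fin n → D) (i : Fin n) : intMulVec M w i = ∑ j, M i j • w j := rfl

section cocycle

variable {G : Type*} [Group G] {D : Type*} [AddCommGroup D] {n : ℕ}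

/-- The set of all coordinates of the values of `c` on a set `s`. -/
def coordSet (c : G → Fin n → D) (s : Set G) : Set D := {x : D | ∃ g ∈ s, ∃ j, x = c g j}

omit [Group G] [AddCommGroup D] in
theorem coordSet_mono (c : G → Fin n → D) {s t : Set G} (h : s ⊆ t) :
    coordSet c s ⊆ coordSet c t := by
  rintro x ⟨g, hg, j, rfl⟩
  exact ⟨g, h hg, j, rfl⟩

omit [Group G] [AddCommGroup D] in
theorem coordSet_finite (c : G → Fin n → D) {s : Set G} (hs : s.Finite) :
    (coordSet c s).Finite := by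
  have : coordSet c s = (fun p : G × Fin n => c p.1 p.2) '' (s ×ˢ (Set.univ : Set (Fin n))) := by
    ext x
    constructor
    · rintro ⟨g, hg, j, rfl⟩
      exact ⟨(g, j), ⟨hg, Set.mem_univ _⟩, rfl⟩
    · rintro ⟨⟨g, j⟩, ⟨hg, -⟩, rfl⟩
      exact ⟨g, hg, j, rfl⟩
  rw [this]
  exact (hs.prod Set.finite_univ).image _

/-- **Abstract cocycle lemma.** If `c (g * h) = ρ h • c g + c h` with `ρ h` integer matrices and
`c 1 = 0`, then all coordinates of all `c g`, `g ∈ closure s`, lie in the additive subgroup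
generated by the coordinates of `c g`, `g ∈ s`. -/
theorem cocycle_mem_closure (ρ : G → Matrix (Fin n) (Fin n) ℤ) (c : G → Fin n → D)
    (h1 : c 1 = 0)
    (hc : ∀ g h, c (g * h) = intMulVec (ρ h) (c g) + c h) (s : Set G) (g : G)
    (hg : g ∈ Subgroup.closure s) (j : Fin n) :
    c g j ∈ AddSubgroup.closure (coordSet c s) := by
  set Λ := AddSubgroup.closure (coordSet c s) with hΛ
  have hact : ∀ (M : Matrix (Fin n) (Fin n) ℤ) (w : Fin n → D), (∀ j, w j ∈ Λ) →
      ∀ i, intMulVec M w i ∈ Λ := by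
    intro M w hw i
    rw [intMulVec_apply]
    exact Λ.sum_mem fun j _ => Λ.zsmul_mem (hw j) _
  revert j
  induction hg using Subgroup.closure_induction with
  | mem x hx =>
    intro j
    exact AddSubgroup.subset_closure ⟨x, hx, j, rfl⟩
  | one =>
    intro j
    rw [h1]
    exact Λ.zero_mem
  | mul x y _ _ hx hy =>
    intro j
    rw [hc x y]
    exact Λ.add_mem (hact _ _ hx j) (hy j)
  | inv x _ hx =>
    intro j
    have h2 := hc x x⁻¹
    rw [mul_inv_cancel, h1] at h2
    have h3 : c x⁻¹ = - intMulVec (ρ x⁻¹) (c x) := by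
      rw [eq_neg_iff_add_eq_zero, add_comm]
      exact h2.symm
    rw [h3]
    exact Λ.neg_mem (hact _ _ hx j)

/-- The additive subgroup generated by all coordinates of a cocycle equals the one generated by
the coordinates on a generating set. -/
theorem closure_cocycle_eq (ρ : G → Matrix (Fin n) (Fin n) ℤ) (c : G → Fin n → D)
    (h1 : c 1 = 0)
    (hc : ∀ g h, c (g * h) = intMulVec (ρ h) (c g) + c h) (s : Set G)
    (hs : Subgroup.closure s = ⊤) :
    AddSubgroup.closure (coordSet c Set.univ) = AddSubgroup.closure (coordSet c s) := by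
  apply le_antisymm
  · rw [AddSubgroup.closure_le]
    rintro x ⟨g, -, j, rfl⟩
    exact cocycle_mem_closure ρ c h1 hc s g (hs ▸ Subgroup.mem_top g) j
  · exact AddSubgroup.closure_mono (coordSet_mono c (Set.subset_univ s))

/-- The `ℤ`-span version of `closure_cocycle_eq`. -/
theorem span_cocycle_eq (ρ : G → Matrix (Fin n) (Fin n) ℤ) (c : G → Fin n → D)
    (h1 : c 1 = 0)
    (hc : ∀ g h, c (g * h) = intMulVec (ρ h) (c g) + c h) (s : Set G)
    (hs : Subgroup.closure s = ⊤) :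
    Submodule.span ℤ (coordSet c Set.univ) = Submodule.span ℤ (coordSet c s) := by
  apply Submodule.toAddSubgroup_injective
  rw [Submodule.span_int_eq_addSubgroupClosure, Submodule.span_int_eq_addSubgroupClosure]
  exact closure_cocycle_eq ρ c h1 hc s hs

/-- For a finitely generated group, the `ℤ`-span of all coordinates of a cocycle (with
integer-matrix action) is a finitely generated `ℤ`-module. -/
theorem cocycle_span_fg [Group.FG G] (ρ : G → Matrix (Fin n) (Fin n) ℤ)
    (c : G → Fin n → D) (h1 : c 1 = 0)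
    (hc : ∀ g h, c (g * h) = intMulVec (ρ h) (c g) + c h) :
    (Submodule.span ℤ (coordSet c Set.univ)).FG := by
  obtain ⟨s, hs⟩ := Group.FG.out (G := G)
  rw [span_cocycle_eq ρ c h1 hc (s : Set G) hs]
  exact Submodule.fg_span (coordSet_finite c s.finite_toSet)

end cocycle

section polyAct

open Polynomial

/-- The integer polynomial `(aX+b)^j (cX+d)^(m-j)` for `A = !![a, b; c, d]`. -/
noncomputable def intActPoly (m : ℕ) (A : Matrix (Fin 2) (Fin 2) ℤ) (j : ℕ) : ℤ[X] :=
  (C (A 0 0) * X + C (A 0 1)) ^ j * (C (A 1 0) * X + C (A 1 1)) ^ (m - j)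

theorem natDegree_intActPoly_le (m : ℕ) (A : Matrix (Fin 2) (Fin 2) ℤ) {j : ℕ} (hj : j ≤ m) :
    (intActPoly m A j).natDegree ≤ m := by
  unfold intActPoly
  have h1 : ∀ a b : ℤ, (C a * X + C b : ℤ[X]).natDegree ≤ 1 := fun a b =>
    natDegree_linear_le
  calc ((C (A 0 0) * X + C (A 0 1)) ^ j * (C (A 1 0) * X + C (A 1 1)) ^ (m - j) : ℤ[X]).natDegree
      ≤ ((C (A 0 0) * X + C (A 0 1)) ^ j : ℤ[X]).natDegree +
          ((C (A 1 0) * X + C (A 1 1)) ^ (m - j) : ℤ[X]).natDegree := natDegree_mul_le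
    _ ≤ j * 1 + (m - j) * 1 :=
        add_le_add (natDegree_pow_le_of_le j (h1 _ _)) (natDegree_pow_le_of_le (m - j) (h1 _ _))
    _ = m := by omega

/-- The integer matrix of `polyAct m A` (i.e. of `P ↦ (cX+d)^m P((aX+b)/(cX+d))`) on polynomials
of degree `≤ m`, in the monomial basis: `polyActMat m A i j` is the coefficient of `X^i` in
`(aX+b)^j (cX+d)^(m-j)`. -/
noncomputable def polyActMat (m : ℕ) (A : Matrix (Fin 2) (Fin 2) ℤ) :
    Matrix (Fin (m + 1)) (Fin (m + 1)) ℤ :=
  fun i j => (intActPoly m A j).coeff i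

theorem polyActMat_apply (m : ℕ) (A : Matrix (Fin 2) (Fin 2) ℤ) (i j : Fin (m + 1)) :
    polyActMat m A i j = (intActPoly m A j).coeff i := rfl

theorem map_intActPoly (m : ℕ) (A : Matrix (Fin 2) (Fin 2) ℤ) (j : ℕ) :
    (intActPoly m A j).map (Int.castRingHom ℂ) =
      (C (A 0 0 : ℂ) * X + C (A 0 1 : ℂ)) ^ j * (C (A 1 0 : ℂ) * X + C (A 1 1 : ℂ)) ^ (m - j) := by
  simp [intActPoly]

theorem polyAct_eq_sum (m : ℕ) (A : Matrix (Fin 2) (Fin 2) ℤ) (P : ℂ[X]) :
    polyAct m A P = ∑ j ∈ Finset.range (m + 1),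
      C (P.coeff j) * (intActPoly m A j).map (Int.castRingHom ℂ) := by
  unfold polyAct
  refine Finset.sum_congr rfl fun j _ => ?_
  rw [map_intActPoly, mul_assoc]

theorem natDegree_polyAct_le (m : ℕ) (A : Matrix (Fin 2) (Fin 2) ℤ) (P : ℂ[X]) :
    (polyAct m A P).natDegree ≤ m := by
  rw [polyAct_eq_sum]
  refine natDegree_sum_le_of_forall_le _ _ fun j hj => ?_
  refine (natDegree_C_mul_le _ _).trans ((natDegree_map_le).trans ?_)
  exact natDegree_intActPoly_le m A (Nat.lt_succ_iff.mp (Finset.mem_range.mp hj))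

theorem coeff_polyAct_nat (m : ℕ) (A : Matrix (Fin 2) (Fin 2) ℤ) (P : ℂ[X]) (i : ℕ) :
    (polyAct m A P).coeff i =
      ∑ j ∈ Finset.range (m + 1), ((intActPoly m A j).coeff i : ℂ) * P.coeff j := by
  rw [polyAct_eq_sum, finsetSum_coeff]
  refine Finset.sum_congr rfl fun j _ => ?_
  rw [coeff_C_mul, coeff_map, mul_comm]
  simp

/-- **Integrality of `polyAct`**: the coefficients of `polyAct m A P` are the integer matrix
`polyActMat m A` applied to the coefficients of `P`. -/
theorem coeff_polyAct (m : ℕ) (A : Matrix (Fin 2) (Fin 2) ℤ) (P : ℂ[X]) (i : Fin (m + 1)) :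
    (polyAct m A P).coeff i = ∑ j : Fin (m + 1), (polyActMat m A i j : ℂ) * P.coeff j := by
  rw [coeff_polyAct_nat, Finset.sum_range]
  rfl

theorem coeff_polyAct_of_lt (m : ℕ) (A : Matrix (Fin 2) (Fin 2) ℤ) (P : ℂ[X]) {i : ℕ}
    (hi : m < i) : (polyAct m A P).coeff i = 0 :=
  coeff_eq_zero_of_natDegree_lt ((natDegree_polyAct_le m A P).trans_lt hi)

theorem eval_polyAct (m : ℕ) (A : Matrix (Fin 2) (Fin 2) ℤ) (P : ℂ[X]) (z : ℂ) :
    (polyAct m A P).eval z = ∑ j ∈ Finset.range (m + 1), P.coeff j *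
      (((A 0 0 : ℂ) * z + (A 0 1 : ℂ)) ^ j * ((A 1 0 : ℂ) * z + (A 1 1 : ℂ)) ^ (m - j)) := by
  unfold polyAct
  rw [eval_finsetSum]
  refine Finset.sum_congr rfl fun j _ => ?_
  simp [mul_assoc]

/-- For a polynomial `P` of degree `≤ m` over a field: `P(u/v) v^m = ∑ⱼ Pⱼ u^j v^(m-j)`. -/
theorem eval_div_mul_pow {K : Type*} [Field K] (m : ℕ) (P : K[X]) (hP : P.natDegree ≤ m)
    (u v : K) (hv : v ≠ 0) :
    P.eval (u / v) * v ^ m = ∑ j ∈ Finset.range (m + 1), P.coeff j * (u ^ j * v ^ (m - j)) := by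
  rw [eval_eq_sum_range' (Nat.lt_succ_of_le hP), Finset.sum_mul]
  refine Finset.sum_congr rfl fun j hj => ?_
  have hj : j ≤ m := Nat.lt_succ_iff.mp (Finset.mem_range.mp hj)
  have h1 : v ^ m = v ^ j * v ^ (m - j) := by rw [← pow_add]; congr 1; omega
  rw [h1, div_pow]
  field_simp

/-- `(polyAct m A P)(z) = P((az+b)/(cz+d)) (cz+d)^m` when `deg P ≤ m` and `cz+d ≠ 0`. -/
theorem eval_polyAct_of_ne_zero (m : ℕ) (A : Matrix (Fin 2) (Fin 2) ℤ) (P : ℂ[X])
    (hP : P.natDegree ≤ m) (z : ℂ) (hz : (A 1 0 : ℂ) * z + (A 1 1 : ℂ) ≠ 0) :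
    (polyAct m A P).eval z =
      P.eval (((A 0 0 : ℂ) * z + (A 0 1 : ℂ)) / ((A 1 0 : ℂ) * z + (A 1 1 : ℂ))) *
        ((A 1 0 : ℂ) * z + (A 1 1 : ℂ)) ^ m := by
  rw [eval_polyAct, eval_div_mul_pow m P hP _ _ hz]

theorem polyAct_add (m : ℕ) (A : Matrix (Fin 2) (Fin 2) ℤ) (P Q : ℂ[X]) :
    polyAct m A (P + Q) = polyAct m A P + polyAct m A Q := by
  unfold polyAct
  rw [← Finset.sum_add_distrib]
  refine Finset.sum_congr rfl fun j _ => ?_
  rw [coeff_add, C_add]
  ring

theorem polyAct_zero (m : ℕ) (A : Matrix (Fin 2) (Fin 2) ℤ) : polyAct m A 0 = 0 := by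
  unfold polyAct
  simp

theorem polyAct_smul (m : ℕ) (A : Matrix (Fin 2) (Fin 2) ℤ) (a : ℂ) (P : ℂ[X]) :
    polyAct m A (a • P) = a • polyAct m A P := by
  unfold polyAct
  rw [Finset.smul_sum]
  refine Finset.sum_congr rfl fun j _ => ?_
  rw [coeff_smul, smul_eq_mul, C_mul, smul_eq_C_mul]
  ring

theorem polyAct_neg (m : ℕ) (A : Matrix (Fin 2) (Fin 2) ℤ) (P : ℂ[X]) :
    polyAct m A (-P) = -polyAct m A P := by
  have := polyAct_smul m A (-1) P
  simpa using this

theorem polyAct_sub (m : ℕ) (A : Matrix (Fin 2) (Fin 2) ℤ) (P Q : ℂ[X]) :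
    polyAct m A (P - Q) = polyAct m A P - polyAct m A Q := by
  rw [sub_eq_add_neg, polyAct_add, polyAct_neg, sub_eq_add_neg]

/-- `polyAct m A` as a `ℂ`-linear map. -/
noncomputable def polyActLin (m : ℕ) (A : Matrix (Fin 2) (Fin 2) ℤ) : ℂ[X] →ₗ[ℂ] ℂ[X] where
  toFun := polyAct m A
  map_add' := polyAct_add m A
  map_smul' := polyAct_smul m A

@[simp] theorem polyActLin_apply (m : ℕ) (A : Matrix (Fin 2) (Fin 2) ℤ) (P : ℂ[X]) :
    polyActLin m A P = polyAct m A P := rfl

theorem polyAct_finset_sum {ι : Type*} (m : ℕ) (A : Matrix (Fin 2) (Fin 2) ℤ) (s : Finset ι)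
    (P : ι → ℂ[X]) : polyAct m A (∑ i ∈ s, P i) = ∑ i ∈ s, polyAct m A (P i) :=
  map_sum (polyActLin m A) P s

/-- `polyAct m 1 P = P` for `deg P ≤ m`. -/
theorem polyAct_one (m : ℕ) (P : ℂ[X]) (hP : P.natDegree ≤ m) : polyAct m 1 P = P := by
  unfold polyAct
  simp only [Matrix.one_apply_eq, Int.cast_one, C_1, one_mul, ne_eq, zero_ne_one, not_false_eq_true,
    Matrix.one_apply_ne, Int.cast_zero, C_0, add_zero, zero_mul, zero_add, one_pow, mul_one,
    one_ne_zero]
  conv_rhs => rw [as_sum_range' P (m + 1) (Nat.lt_succ_of_le hP)]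
  refine Finset.sum_congr rfl fun j _ => ?_
  rw [C_mul_X_pow_eq_monomial]

end polyAct

end Fermat.Agent.S22
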