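import Mathlib
import Fermat.Agent.S22.Bol

set_option autoImplicit false

open UpperHalfPlane hiding I
open Real Complex Derivative
open scoped Manifold MatrixGroups ModularForm Topology

namespace Fermat.Agent.S22

noncomputable section

/-- The normalized derivative of the restriction to `ℍ` of a function on `ℂ`. -/
theorem D_restrict_apply (G : ℂ → ℂ) (z : ℍ) :
    D (fun w : ℍ => G w) z = (2 * π * I)⁻¹ * deriv G z := by
  simp only [normalizedDerivOfComplex]
  congr 1
  apply Filter.EventuallyEq.deriv_eq
  filter_upwards [isOpen_upperHalfPlaneSet.mem_nhds z.im_pos] with w hw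
  simp [Function.comp_apply, ofComplex_apply_of_im_pos hw]

/-- A holomorphic function on `ℍ` with vanishing normalized derivative is constant. -/
theorem eq_const_of_D_eq_zero {h : ℍ → ℂ} (hh : MDiff h) (hD : D h = 0) :
    ∃ c : ℂ, ∀ z : ℍ, h z = c := by
  have hdiff : DifferentiableOn ℂ (h ∘ ofComplex) upperHalfPlaneSet :=
    UpperHalfPlane.mdifferentiable_iff.mp hh
  have hderiv : upperHalfPlaneSet.EqOn (deriv (h ∘ ofComplex)) 0 := by
    intro w hw
    have h2 : (2 * π * I : ℂ)⁻¹ ≠ 0 := by
      apply inv_ne_zero
      simp [Real.pi_ne_zero, Complex.I_ne_zero]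
    have := congrFun hD ⟨w, hw⟩
    simp only [normalizedDerivOfComplex, Pi.zero_apply] at this
    rcases mul_eq_zero.mp this with h' | h'
    · exact absurd h' h2
    · simpa using h'
  have hconv : Convex ℝ upperHalfPlaneSet := by
    intro x hx y hy a b ha hb hab
    simp only [upperHalfPlaneSet, Set.mem_ofPred_eq] at *
    have : (a • x + b • y).im = a * x.im + b * y.im := by simp
    rw [this]
    rcases ha.lt_or_eq with ha' | ha'
    · have := mul_pos ha' hx
      have := mul_nonneg hb hy.le
      linarith
    · subst ha'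
      have hb1 : b = 1 := by linarith
      subst hb1
      simpa using hy
  let z₀ : ℍ := ⟨Complex.I, by simp⟩
  refine ⟨h z₀, fun z => ?_⟩
  have := isOpen_upperHalfPlaneSet.is_const_of_deriv_eq_zero hconv.isPreconnected
    hdiff hderiv (x := (z : ℂ)) (y := (z₀ : ℂ)) z.im_pos z₀.im_pos
  simpa only [Function.comp_apply, ofComplex_apply] using this

/-- The restriction to `ℍ` of an entire function is holomorphic. -/
theorem mdiff_restrict {G : ℂ → ℂ} (hG : Differentiable ℂ G) : MDiff (fun w : ℍ => G w) := by
  rw [UpperHalfPlane.mdifferentiable_iff]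
  refine hG.differentiableOn.congr fun w hw => ?_
  simp [Function.comp_apply, ofComplex_apply_of_im_pos hw]

open Finset in
/-- A holomorphic function on `ℍ` killed by the `n`-th power of the normalized derivative is a
polynomial of degree `< n`. -/
theorem exists_poly_of_iterate_D_eq_zero (n : ℕ) {h : ℍ → ℂ} (hh : MDiff h)
    (hD : D^[n] h = 0) :
    ∃ c : ℕ → ℂ, ∀ z : ℍ, h z = ∑ i ∈ range n, c i * (z : ℂ) ^ i := by
  induction n generalizing h with
  | zero =>
    refine ⟨fun _ => 0, fun z => ?_⟩
    simp only [Function.iterate_zero, id_eq] at hD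
    simp [hD]
  | succ n ih =>
    rw [Function.iterate_succ_apply] at hD
    obtain ⟨c, hc⟩ := ih (normalizedDerivOfComplex_mdifferentiable hh) hD
    -- an antiderivative of the polynomial `D h`
    set Q : ℂ → ℂ := fun w => ∑ i ∈ range n, (2 * π * I * c i / ((i : ℂ) + 1)) * w ^ (i + 1)
      with hQ
    have hQderiv : ∀ w : ℂ, HasDerivAt Q (∑ i ∈ range n, 2 * π * I * c i * w ^ i) w := by
      intro w
      have hsum : (∑ i ∈ range n, 2 * π * I * c i * w ^ i) =
          ∑ i ∈ range n, (2 * π * I * c i / ((i : ℂ) + 1)) * (((i + 1 : ℕ) : ℂ) * w ^ i) := by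
        refine Finset.sum_congr rfl fun i _ => ?_
        have hi : ((i : ℂ) + 1) ≠ 0 := by exact_mod_cast Nat.succ_ne_zero i
        push_cast
        field_simp
      rw [hsum]
      exact HasDerivAt.fun_sum (u := range n)
        (A := fun i w => (2 * π * I * c i / ((i : ℂ) + 1)) * w ^ (i + 1))
        (A' := fun i => (2 * π * I * c i / ((i : ℂ) + 1)) * (((i + 1 : ℕ) : ℂ) * w ^ i)) (x := w)
        (fun i _ => by
          have := (hasDerivAt_pow (i + 1) w).const_mul (2 * π * I * c i / ((i : ℂ) + 1))
          simpa using this)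
    have hQdiff : Differentiable ℂ Q := fun w => (hQderiv w).differentiableAt
    have hQmd : MDiff (fun w : ℍ => Q w) := mdiff_restrict hQdiff
    have hDQ : D (fun w : ℍ => Q w) = D h := by
      ext z
      rw [D_restrict_apply, (hQderiv z).deriv, hc z, Finset.mul_sum]
      refine sum_congr rfl fun i _ => ?_
      have : (2 * π * I : ℂ) ≠ 0 := by simp [Real.pi_ne_zero, Complex.I_ne_zero]
      field_simp
    have hzero : D (h - fun w : ℍ => Q w) = 0 := by
      rw [normalizedDerivOfComplex_sub _ _ hh hQmd, hDQ, sub_self]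
    obtain ⟨a, ha⟩ := eq_const_of_D_eq_zero (hh.sub hQmd) hzero
    refine ⟨fun i => match i with
      | 0 => a
      | (i + 1) => 2 * π * I * c i / ((i : ℂ) + 1), fun z => ?_⟩
    rw [sum_range_succ']
    have := ha z
    simp only [Pi.sub_apply] at this
    simp only [pow_zero, mul_one]
    rw [← this, hQ]
    ring

open Finset Polynomial in
/-- Uniqueness of the coefficients of a polynomial function on `ℍ`. -/
theorem coeff_eq_zero_of_forall_sum_eq_zero (n : ℕ) (c : ℕ → ℂ)
    (h : ∀ z : ℍ, ∑ i ∈ range n, c i * (z : ℂ) ^ i = 0) : ∀ i < n, c i = 0 := by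
  set p : ℂ[X] := ∑ i ∈ range n, C (c i) * X ^ i with hp
  have hroots : ∀ z : ℍ, p.IsRoot (z : ℂ) := by
    intro z
    simp only [IsRoot, hp, eval_finsetSum, eval_mul, eval_C, eval_pow, eval_X]
    exact h z
  have hinf : Set.Infinite {x : ℂ | p.IsRoot x} := by
    have : Set.Infinite (Set.range (fun m : ℕ => ((m : ℂ) + Complex.I))) := by
      apply Set.infinite_range_of_injective
      intro a b hab
      have := congrArg Complex.re hab
      simpa using this
    refine this.mono ?_
    rintro _ ⟨m, rfl⟩
    have him : 0 < ((m : ℂ) + Complex.I).im := by simp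
    exact hroots ⟨_, him⟩
  have hp0 : p = 0 := Polynomial.eq_zero_of_infinite_isRoot p hinf
  intro i hi
  have := congrArg (fun q : ℂ[X] => q.coeff i) hp0
  simp only [hp, finsetSum_coeff, coeff_C_mul, coeff_X_pow, coeff_zero] at this
  rw [Finset.sum_eq_single i] at this
  · simpa using this
  · intro j _ hji
    simp [hji.symm]
  · intro hi'
    exact absurd (mem_range.mpr hi) hi'

end

end Fermat.Agent.S22
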