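import Mathlib
import Fermat.Agent.S22.PolyOfDZero
import Fermat.Agent.S22.Defs

set_option autoImplicit false

open UpperHalfPlane hiding I
open Real Complex Derivative
open scoped Manifold MatrixGroups ModularForm Topology

namespace Fermat.Agent.S22

noncomputable section

theorem iterate_D_add {F G : ℍ → ℂ} (hF : MDiff F) (hG : MDiff G) (n : ℕ) :
    D^[n] (F + G) = D^[n] F + D^[n] G := by
  induction n generalizing F G with
  | zero => rfl
  | succ n ih =>
    rw [Function.iterate_succ_apply, Function.iterate_succ_apply, Function.iterate_succ_apply,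
      normalizedDerivOfComplex_add _ _ hF hG,
      ih (normalizedDerivOfComplex_mdifferentiable hF) (normalizedDerivOfComplex_mdifferentiable hG)]

theorem iterate_D_sub {F G : ℍ → ℂ} (hF : MDiff F) (hG : MDiff G) (n : ℕ) :
    D^[n] (F - G) = D^[n] F - D^[n] G := by
  induction n generalizing F G with
  | zero => rfl
  | succ n ih =>
    rw [Function.iterate_succ_apply, Function.iterate_succ_apply, Function.iterate_succ_apply,
      normalizedDerivOfComplex_sub _ _ hF hG,
      ih (normalizedDerivOfComplex_mdifferentiable hF) (normalizedDerivOfComplex_mdifferentiable hG)]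

theorem iterate_D_smul (c : ℂ) {F : ℍ → ℂ} (hF : MDiff F) (n : ℕ) :
    D^[n] (c • F) = c • D^[n] F := by
  induction n generalizing F with
  | zero => rfl
  | succ n ih =>
    rw [Function.iterate_succ_apply, Function.iterate_succ_apply,
      normalizedDerivOfComplex_smul _ _ hF, ih (normalizedDerivOfComplex_mdifferentiable hF)]

open Finset Polynomial Filter in
/-- Polynomial version of `exists_poly_of_iterate_D_eq_zero`. -/
theorem exists_polynomial_of_iterate_D_eq_zero (n : ℕ) {h : ℍ → ℂ} (hh : MDiff h)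
    (hD : D^[n] h = 0) :
    ∃ p : ℂ[X], p.degree < n ∧ ∀ z : ℍ, h z = p.eval (z : ℂ) := by
  obtain ⟨c, hc⟩ := exists_poly_of_iterate_D_eq_zero n hh hD
  refine ⟨∑ i ∈ range n, C (c i) * X ^ i, ?_, fun z => ?_⟩
  · refine lt_of_le_of_lt (degree_sum_le _ _) ?_
    rw [Finset.sup_lt_iff (by exact WithBot.bot_lt_coe n)]
    intro i hi
    refine lt_of_le_of_lt (degree_C_mul_X_pow_le i (c i)) ?_
    exact_mod_cast mem_range.mp hi
  · rw [hc z]
    simp [eval_finsetSum]

open Finset Polynomial Filter in
/-- A polynomial function on `ℍ` which tends to zero at `i∞` vanishes. -/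
theorem polynomial_eq_zero_of_isZeroAtImInfty (p : ℂ[X])
    (h0 : IsZeroAtImInfty (fun z : ℍ => p.eval (z : ℂ))) : p = 0 := by
  have hpath : Tendsto (fun t : ℝ => ofComplex (I * t)) atTop atImInfty := by
    refine UpperHalfPlane.tendsto_comap_im_ofComplex.comp ?_
    rw [tendsto_comap_iff]
    have : (Complex.im ∘ fun t : ℝ => I * (t : ℂ)) = id := by
      ext t
      simp
    rw [this]
    exact tendsto_id
  have hlim : Tendsto (fun t : ℝ => p.eval (I * t)) atTop (𝓝 0) := by
    have h1 := h0.comp hpath
    refine h1.congr' ?_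
    filter_upwards [eventually_gt_atTop 0] with t ht
    have : 0 < (I * (t : ℂ)).im := by simpa using ht
    simp [Function.comp_apply, ofComplex_apply_of_im_pos this]
  by_contra hp
  by_cases hdeg : 0 < p.degree
  · have hnorm : Tendsto (fun t : ℝ => ‖(I * t : ℂ)‖) atTop atTop := by
      simpa using tendsto_abs_atTop_atTop
    have := Polynomial.tendsto_norm_atTop p hdeg hnorm
    exact not_tendsto_nhds_of_tendsto_atTop this _ hlim.norm
  · have hC : p = C (p.coeff 0) := eq_C_of_degree_le_zero (not_lt.mp hdeg)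
    rw [hC] at hlim
    simp only [eval_C] at hlim
    have := tendsto_nhds_unique hlim tendsto_const_nhds
    rw [← this, map_zero] at hC
    exact hp hC

/-- A holomorphic function on `ℍ` killed by `D^n` and tending to zero at `i∞` vanishes. -/
theorem eq_zero_of_iterate_D_eq_zero_of_isZeroAtImInfty (n : ℕ) {h : ℍ → ℂ} (hh : MDiff h)
    (hD : D^[n] h = 0) (h0 : IsZeroAtImInfty h) : h = 0 := by
  obtain ⟨p, -, hp⟩ := exists_polynomial_of_iterate_D_eq_zero n hh hD
  have : p = 0 := by
    apply polynomial_eq_zero_of_isZeroAtImInfty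
    have : (fun z : ℍ => p.eval (z : ℂ)) = h := by
      ext z
      exact (hp z).symm
    rw [this]
    exact h0
  ext z
  rw [hp z, this]
  simp

/-- Eichler integrals are unique. -/
theorem IsEichler.unique {m : ℕ} {f F₁ F₂ : ℍ → ℂ} (h₁ : IsEichler m f F₁)
    (h₂ : IsEichler m f F₂) : F₁ = F₂ := by
  have hD : D^[m] (F₁ - F₂) = 0 := by
    rw [iterate_D_sub h₁.mdiff h₂.mdiff, h₁.iter, h₂.iter, sub_self]
  have h0 : IsZeroAtImInfty (F₁ - F₂) := by
    have h3 : Filter.Tendsto (fun z => F₁ z - F₂ z) atImInfty (𝓝 (0 - 0)) :=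
      Filter.Tendsto.sub h₁.zero_at h₂.zero_at
    rw [sub_zero] at h3
    exact h3
  exact sub_eq_zero.mp
    (eq_zero_of_iterate_D_eq_zero_of_isZeroAtImInfty m (h₁.mdiff.sub h₂.mdiff) hD h0)

end

end Fermat.Agent.S22
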