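import Mathlib
import Fermat.Agent.S22.Unique
import Fermat.Agent.S22.FG

/-!
# S22, piece (C): period polynomials, generic part

For a holomorphic `F : ℍ → ℂ` and `γ : SL(2, ℤ)` such that `D^[m] F` is invariant under `γ` in
weight `m + 1`, the function `F ∣[1 - m] γ - F` is (the restriction to `ℍ` of) a polynomial of
degree `< m`, the *period polynomial* `periodPolyGen m F γ`. We prove linearity in `F`, the
cocycle relation, and the characterisation of vanishing.
-/

set_option autoImplicit false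

open UpperHalfPlane hiding I
open Real Complex Derivative Polynomial
open scoped Manifold MatrixGroups ModularForm Topology

namespace Fermat.Agent.S22

noncomputable section

/-- Bol's identity for `SL(2, ℤ)`. -/
theorem bol_SL (n : ℕ) {F : ℍ → ℂ} (hF : MDiff F) (γ : SL(2, ℤ)) :
    D^[n] (F ∣[(1 : ℤ) - n] γ) = (D^[n] F) ∣[(n : ℤ) + 1] γ := by
  rw [ModularForm.SL_slash, ModularForm.SL_slash]
  apply bol_of_det_eq_one n hF
  exact (Matrix.SpecialLinearGroup.map (Int.castRingHom ℝ) γ).det_coe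

theorem mdiff_slash_SL (k : ℤ) {F : ℍ → ℂ} (hF : MDiff F) (γ : SL(2, ℤ)) : MDiff (F ∣[k] γ) := by
  rw [ModularForm.SL_slash]
  exact hF.slash k _

theorem sub_slash_SL (k : ℤ) (F G : ℍ → ℂ) (γ : SL(2, ℤ)) :
    (F - G) ∣[k] γ = F ∣[k] γ - G ∣[k] γ := by
  rw [sub_eq_add_neg, SlashAction.add_slash, SlashAction.neg_slash, sub_eq_add_neg]

/-- A polynomial is determined by its values on the upper half plane. -/
theorem polynomial_eq_of_eval_eq {p q : ℂ[X]} (h : ∀ z : ℍ, p.eval (z : ℂ) = q.eval (z : ℂ)) :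
    p = q := by
  rw [← sub_eq_zero]
  apply Polynomial.eq_zero_of_infinite_isRoot
  have : Set.Infinite (Set.range (fun m : ℕ => ((m : ℂ) + Complex.I))) := by
    apply Set.infinite_range_of_injective
    intro a b hab
    have := congrArg Complex.re hab
    simpa using this
  refine this.mono ?_
  rintro _ ⟨m, rfl⟩
  have him : 0 < ((m : ℂ) + Complex.I).im := by simp
  have := h ⟨_, him⟩
  simp only [Set.mem_ofPred_eq, IsRoot, eval_sub, sub_eq_zero]
  exact this

/-- The restriction to `ℍ` of a polynomial function is holomorphic. -/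
theorem mdiff_polynomial (p : ℂ[X]) : MDiff (fun z : ℍ => p.eval (z : ℂ)) :=
  mdiff_restrict (G := fun w => p.eval w) p.differentiable

/-- The slash action of `SL(2, ℤ)` in weight `-n` on polynomials of degree `≤ n` is `polyAct`. -/
theorem polynomial_slash_SL (n : ℕ) (p : ℂ[X]) (hp : p.natDegree ≤ n) (γ : SL(2, ℤ)) :
    (fun z : ℍ => p.eval (z : ℂ)) ∣[-(n : ℤ)] γ =
      fun z : ℍ => (polyAct n (γ : Matrix (Fin 2) (Fin 2) ℤ) p).eval (z : ℂ) := by
  ext z
  have hz : ((γ 1 0 : ℤ) : ℂ) * (z : ℂ) + ((γ 1 1 : ℤ) : ℂ) ≠ 0 := by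
    have := denom_ne_zero γ z
    simpa [denom] using this
  rw [ModularForm.SL_slash_apply, eval_polyAct_of_ne_zero n _ p hp _ hz, neg_neg, zpow_natCast]
  have h1 : ((γ • z : ℍ) : ℂ) = (((γ 0 0 : ℤ) : ℂ) * z + ((γ 0 1 : ℤ) : ℂ)) /
      (((γ 1 0 : ℤ) : ℂ) * z + ((γ 1 1 : ℤ) : ℂ)) := by
    rw [UpperHalfPlane.coe_specialLinearGroup_apply]
    simp
  have h2 : denom γ z = ((γ 1 0 : ℤ) : ℂ) * z + ((γ 1 1 : ℤ) : ℂ) := by
    simp [denom]
  rw [h1, h2]

/-- The *period polynomial* of `F` at `γ` of order `m`: the polynomial of degree `< m` agreeing with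
`F ∣[1 - m] γ - F` on `ℍ`, if there is one, and `0` otherwise. -/
def periodPolyGen (m : ℕ) (F : ℍ → ℂ) (γ : SL(2, ℤ)) : ℂ[X] :=
  open Classical in
  if h : ∃ p : ℂ[X], p.degree < m ∧ ∀ z : ℍ, (F ∣[(1 : ℤ) - m] γ - F) z = p.eval (z : ℂ) then
    h.choose
  else 0

theorem exists_periodPolyGen (m : ℕ) {F : ℍ → ℂ} (hF : MDiff F) {γ : SL(2, ℤ)}
    (hinv : (D^[m] F) ∣[(m : ℤ) + 1] γ = D^[m] F) :
    ∃ p : ℂ[X], p.degree < m ∧ ∀ z : ℍ, (F ∣[(1 : ℤ) - m] γ - F) z = p.eval (z : ℂ) := by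
  apply exists_polynomial_of_iterate_D_eq_zero m ((mdiff_slash_SL _ hF γ).sub hF)
  rw [iterate_D_sub (mdiff_slash_SL _ hF γ) hF, bol_SL m hF γ, hinv, sub_self]

theorem periodPolyGen_spec (m : ℕ) {F : ℍ → ℂ} (hF : MDiff F) {γ : SL(2, ℤ)}
    (hinv : (D^[m] F) ∣[(m : ℤ) + 1] γ = D^[m] F) :
    (periodPolyGen m F γ).degree < m ∧
      ∀ z : ℍ, (F ∣[(1 : ℤ) - m] γ - F) z = (periodPolyGen m F γ).eval (z : ℂ) := by
  have h := exists_periodPolyGen m hF hinv
  unfold periodPolyGen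
  rw [dif_pos h]
  exact h.choose_spec

theorem degree_periodPolyGen_lt (m : ℕ) (F : ℍ → ℂ) (γ : SL(2, ℤ)) :
    (periodPolyGen m F γ).degree < m := by
  unfold periodPolyGen
  split_ifs with h
  · exact h.choose_spec.1
  · rw [degree_zero]
    exact WithBot.bot_lt_coe m

theorem natDegree_periodPolyGen_le (m : ℕ) (F : ℍ → ℂ) (γ : SL(2, ℤ)) :
    (periodPolyGen m F γ).natDegree ≤ m - 1 := by
  unfold periodPolyGen
  split_ifs with h
  · have h1 := h.choose_spec.1
    by_cases h0 : h.choose = 0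
    · rw [h0]; simp
    · rw [degree_eq_natDegree h0] at h1
      have : h.choose.natDegree < m := by exact_mod_cast h1
      omega
  · simp

theorem coeff_periodPolyGen_of_le (m : ℕ) (F : ℍ → ℂ) (γ : SL(2, ℤ)) {j : ℕ} (hj : m ≤ j) :
    (periodPolyGen m F γ).coeff j = 0 := by
  unfold periodPolyGen
  split_ifs with h
  · apply coeff_eq_zero_of_degree_lt
    refine lt_of_lt_of_le h.choose_spec.1 ?_
    exact_mod_cast hj
  · simp

/-- Characterisation of the period polynomial. -/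
theorem periodPolyGen_eq_of_eval (m : ℕ) {F : ℍ → ℂ} {γ : SL(2, ℤ)} {p : ℂ[X]}
    (hp : p.degree < m) (h : ∀ z : ℍ, (F ∣[(1 : ℤ) - m] γ - F) z = p.eval (z : ℂ)) :
    periodPolyGen m F γ = p := by
  have hex : ∃ p : ℂ[X], p.degree < m ∧ ∀ z : ℍ, (F ∣[(1 : ℤ) - m] γ - F) z = p.eval (z : ℂ) :=
    ⟨p, hp, h⟩
  unfold periodPolyGen
  rw [dif_pos hex]
  apply polynomial_eq_of_eval_eq
  intro z
  rw [← hex.choose_spec.2 z, h z]

theorem periodPolyGen_add (m : ℕ) {F G : ℍ → ℂ} (hF : MDiff F) (hG : MDiff G) {γ : SL(2, ℤ)}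
    (hFinv : (D^[m] F) ∣[(m : ℤ) + 1] γ = D^[m] F)
    (hGinv : (D^[m] G) ∣[(m : ℤ) + 1] γ = D^[m] G) :
    periodPolyGen m (F + G) γ = periodPolyGen m F γ + periodPolyGen m G γ := by
  obtain ⟨hF1, hF2⟩ := periodPolyGen_spec m hF hFinv
  obtain ⟨hG1, hG2⟩ := periodPolyGen_spec m hG hGinv
  apply periodPolyGen_eq_of_eval
  · exact lt_of_le_of_lt (degree_add_le _ _) (max_lt hF1 hG1)
  · intro z
    have h1 := hF2 z
    have h2 := hG2 z
    simp only [Pi.sub_apply] at h1 h2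
    simp only [SlashAction.add_slash, Pi.sub_apply, Pi.add_apply, eval_add, ← h1, ← h2]
    ring

theorem periodPolyGen_smul (m : ℕ) (c : ℂ) {F : ℍ → ℂ} (hF : MDiff F) {γ : SL(2, ℤ)}
    (hFinv : (D^[m] F) ∣[(m : ℤ) + 1] γ = D^[m] F) :
    periodPolyGen m (c • F) γ = c • periodPolyGen m F γ := by
  obtain ⟨hF1, hF2⟩ := periodPolyGen_spec m hF hFinv
  apply periodPolyGen_eq_of_eval
  · exact lt_of_le_of_lt (degree_smul_le _ _) hF1
  · intro z
    have h1 := hF2 z
    simp only [Pi.sub_apply] at h1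
    simp only [ModularForm.SL_smul_slash, Pi.sub_apply, Pi.smul_apply, eval_smul, ← h1]
    simp only [smul_eq_mul]
    ring

theorem periodPolyGen_one (m : ℕ) (F : ℍ → ℂ) : periodPolyGen m F 1 = 0 := by
  by_cases hm : m = 0
  · subst hm
    have := natDegree_periodPolyGen_le 0 F 1
    unfold periodPolyGen
    split_ifs with h
    · have h1 := h.choose_spec.1
      simpa using h1
    · rfl
  · apply periodPolyGen_eq_of_eval
    · rw [degree_zero]; exact WithBot.bot_lt_coe m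
    · intro z
      simp

/-- The period polynomial vanishes iff `F` is invariant. -/
theorem periodPolyGen_eq_zero_iff (m : ℕ) {F : ℍ → ℂ} (hF : MDiff F) {γ : SL(2, ℤ)}
    (hinv : (D^[m] F) ∣[(m : ℤ) + 1] γ = D^[m] F) :
    periodPolyGen m F γ = 0 ↔ F ∣[(1 : ℤ) - m] γ = F := by
  obtain ⟨h1, h2⟩ := periodPolyGen_spec m hF hinv
  constructor
  · intro h0
    ext z
    have := h2 z
    rw [h0] at this
    simpa [sub_eq_zero] using this
  · intro h
    apply polynomial_eq_of_eval_eq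
    intro z
    rw [← h2 z, h]
    simp

/-- The cocycle relation for period polynomials. -/
theorem periodPolyGen_mul (m : ℕ) {F : ℍ → ℂ} (hF : MDiff F) {γ δ : SL(2, ℤ)}
    (hγ : (D^[m] F) ∣[(m : ℤ) + 1] γ = D^[m] F) (hδ : (D^[m] F) ∣[(m : ℤ) + 1] δ = D^[m] F) :
    periodPolyGen m F (γ * δ) =
      polyAct (m - 1) (δ : Matrix (Fin 2) (Fin 2) ℤ) (periodPolyGen m F γ) +
        periodPolyGen m F δ := by
  obtain ⟨hγ1, hγ2⟩ := periodPolyGen_spec m hF hγ
  obtain ⟨hδ1, hδ2⟩ := periodPolyGen_spec m hF hδ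
  rcases Nat.eq_zero_or_pos m with rfl | hm
  · -- all polynomials of degree `< 0` vanish
    have e1 : periodPolyGen 0 F γ = 0 := by simpa using hγ1
    have e2 : periodPolyGen 0 F δ = 0 := by simpa using hδ1
    have hγδ : (D^[0] F) ∣[((0 : ℕ) : ℤ) + 1] (γ * δ) = D^[0] F := by
      rw [SlashAction.slash_mul, hγ, hδ]
    have e3 : periodPolyGen 0 F (γ * δ) = 0 := by
      simpa using (periodPolyGen_spec 0 hF hγδ).1
    rw [e1, e2, e3, polyAct_zero, add_zero]
  apply periodPolyGen_eq_of_eval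
  · refine lt_of_le_of_lt (degree_add_le _ _) (max_lt ?_ hδ1)
    refine lt_of_le_of_lt degree_le_natDegree ?_
    have := natDegree_polyAct_le (m - 1) (δ : Matrix (Fin 2) (Fin 2) ℤ) (periodPolyGen m F γ)
    have h2 : (polyAct (m - 1) (δ : Matrix (Fin 2) (Fin 2) ℤ) (periodPolyGen m F γ)).natDegree < m :=
      by omega
    exact_mod_cast h2
  · intro z
    have hfun : F ∣[(1 : ℤ) - m] γ - F = fun z : ℍ => (periodPolyGen m F γ).eval (z : ℂ) :=
      funext hγ2
    have hw : (1 : ℤ) - m = -((m - 1 : ℕ) : ℤ) := by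
      rw [Nat.cast_sub hm]; push_cast; ring
    have hsl := polynomial_slash_SL (m - 1) (periodPolyGen m F γ)
      (natDegree_periodPolyGen_le m F γ) δ
    rw [← hw, ← hfun, sub_slash_SL] at hsl
    have h3 := congrFun hsl z
    have h4 := hδ2 z
    simp only [Pi.sub_apply] at h3 h4
    simp only [SlashAction.slash_mul, Pi.sub_apply, eval_add, ← h3, ← h4]
    ring

end

end Fermat.Agent.S22
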