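import Mathlib
import Fermat.Agent.S22.PeriodGen
import Fermat.Agent.S22.Exist
import Fermat.Prelude.Thm_CongruenceSubgroup_one_mem_strictPeriods_Gamma0

/-!
# S22, piece (C): Eichler integrals and period polynomials of cusp forms on `Γ₀(N)`

* `eichlerInt m f` : the Eichler integral of `f` (of order `m`), characterised by
  `IsEichler m f (eichlerInt m f)` as soon as some Eichler integral exists.
* `periodPoly m f γ` : the period polynomial `eichlerInt m f ∣[1 - m] γ - eichlerInt m f`.
* `periodFunctional N m γ j` : the functional `f ↦ (periodPoly m f γ).coeff j` on cusp forms.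
* `periodLattice N m` : the `ℤ`-span of the period functionals, `periodLattice_fg`.
-/

set_option autoImplicit false

open UpperHalfPlane hiding I
open Real Complex Derivative Polynomial CongruenceSubgroup
open scoped Manifold MatrixGroups ModularForm Topology

namespace Fermat.Agent.S22

noncomputable section

section eichlerInt

variable {m : ℕ} {f g F G : ℍ → ℂ}

/-- The Eichler integral of `f` of order `m` (if it exists; `0` otherwise). -/
def eichlerInt (m : ℕ) (f : ℍ → ℂ) : ℍ → ℂ :=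
  open Classical in if h : ∃ F, IsEichler m f F then h.choose else 0

theorem isEichler_eichlerInt (h : ∃ F, IsEichler m f F) : IsEichler m f (eichlerInt m f) := by
  unfold eichlerInt
  rw [dif_pos h]
  exact h.choose_spec

theorem IsEichler.eq_eichlerInt (h : IsEichler m f F) : F = eichlerInt m f :=
  h.unique (isEichler_eichlerInt ⟨F, h⟩)

theorem IsEichler.add (hF : IsEichler m f F) (hG : IsEichler m g G) :
    IsEichler m (f + g) (F + G) where
  mdiff := hF.mdiff.add hG.mdiff
  zero_at := by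
    have h3 : Filter.Tendsto (fun z => F z + G z) atImInfty (𝓝 (0 + 0)) :=
      Filter.Tendsto.add hF.zero_at hG.zero_at
    rw [add_zero] at h3
    exact h3
  iter := by rw [iterate_D_add hF.mdiff hG.mdiff, hF.iter, hG.iter]

theorem IsEichler.smul (c : ℂ) (hF : IsEichler m f F) : IsEichler m (c • f) (c • F) where
  mdiff := hF.mdiff.const_smul c
  zero_at := by
    have h3 : Filter.Tendsto (fun z => c • F z) atImInfty (𝓝 (c • 0)) :=
      Filter.Tendsto.const_smul hF.zero_at c
    rw [smul_zero] at h3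
    exact h3
  iter := by rw [iterate_D_smul c hF.mdiff, hF.iter]

theorem IsEichler.sub (hF : IsEichler m f F) (hG : IsEichler m g G) :
    IsEichler m (f - g) (F - G) := by
  have := hF.add (hG.smul (-1))
  simpa [sub_eq_add_neg] using this

theorem IsEichler.sum {ι : Type*} (s : Finset ι) {f F : ι → ℍ → ℂ}
    (h : ∀ i ∈ s, IsEichler m (f i) (F i)) : IsEichler m (∑ i ∈ s, f i) (∑ i ∈ s, F i) := by
  classical
  induction s using Finset.induction_on with
  | empty =>
    simp only [Finset.sum_empty]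
    refine ⟨mdifferentiable_const, ?_, ?_⟩
    · exact tendsto_const_nhds
    · have := iterate_D_smul (0 : ℂ) (F := (0 : ℍ → ℂ)) mdifferentiable_const m
      simpa using this
  | insert i t hi IH =>
    rw [Finset.sum_insert hi, Finset.sum_insert hi]
    exact (h i (Finset.mem_insert_self i t)).add
      (IH fun j hj => h j (Finset.mem_insert_of_mem hj))

theorem eichlerInt_add (hf : ∃ F, IsEichler m f F) (hg : ∃ G, IsEichler m g G) :
    eichlerInt m (f + g) = eichlerInt m f + eichlerInt m g :=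
  ((isEichler_eichlerInt hf).add (isEichler_eichlerInt hg)).eq_eichlerInt.symm

theorem eichlerInt_smul (c : ℂ) (hf : ∃ F, IsEichler m f F) :
    eichlerInt m (c • f) = c • eichlerInt m f :=
  ((isEichler_eichlerInt hf).smul c).eq_eichlerInt.symm

end eichlerInt

section cusp

variable {N : ℕ} [NeZero N] {m : ℕ}

theorem exists_isEichler_cuspForm (f : CuspForm (Gamma0 N) ((m : ℤ) + 1)) :
    ∃ F, IsEichler m (⇑f) F := by
  have hper : Function.Periodic ((⇑f : ℍ → ℂ) ∘ ofComplex) (1 : ℝ) := by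
    have := SlashInvariantFormClass.periodic_comp_ofComplex f
      (CongruenceSubgroup.one_mem_strictPeriods_Gamma0 N)
    simpa using this
  obtain ⟨F, hF, -⟩ := exists_isEichler m one_pos (CuspFormClass.holo f) hper
    (CuspFormClass.zero_at_infty f)
  exact ⟨F, hF⟩

theorem isEichler_eichlerInt_cuspForm (f : CuspForm (Gamma0 N) ((m : ℤ) + 1)) :
    IsEichler m (⇑f) (eichlerInt m f) :=
  isEichler_eichlerInt (exists_isEichler_cuspForm f)

omit [NeZero N] in
theorem cuspForm_slash_eq (f : CuspForm (Gamma0 N) ((m : ℤ) + 1)) {γ : SL(2, ℤ)}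
    (hγ : γ ∈ Gamma0 N) : (⇑f : ℍ → ℂ) ∣[(m : ℤ) + 1] γ = ⇑f := by
  rw [ModularForm.SL_slash]
  exact SlashInvariantFormClass.slash_action_eq f _ (Subgroup.mem_map_of_mem _ hγ)

theorem iterate_D_eichlerInt_slash (f : CuspForm (Gamma0 N) ((m : ℤ) + 1)) {γ : SL(2, ℤ)}
    (hγ : γ ∈ Gamma0 N) :
    (D^[m] (eichlerInt m f)) ∣[(m : ℤ) + 1] γ = D^[m] (eichlerInt m f) := by
  rw [(isEichler_eichlerInt_cuspForm f).iter, cuspForm_slash_eq f hγ]

/-- The period polynomial of `f` at `γ`. -/
def periodPoly (m : ℕ) (f : ℍ → ℂ) (γ : SL(2, ℤ)) : ℂ[X] :=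
  periodPolyGen m (eichlerInt m f) γ

theorem periodPoly_spec (f : CuspForm (Gamma0 N) ((m : ℤ) + 1)) {γ : SL(2, ℤ)}
    (hγ : γ ∈ Gamma0 N) :
    (periodPoly m f γ).degree < m ∧
      ∀ z : ℍ, (eichlerInt m f ∣[(1 : ℤ) - m] γ - eichlerInt m f) z =
        (periodPoly m f γ).eval (z : ℂ) :=
  periodPolyGen_spec m (isEichler_eichlerInt_cuspForm f).mdiff (iterate_D_eichlerInt_slash f hγ)

theorem natDegree_periodPoly_le (m : ℕ) (f : ℍ → ℂ) (γ : SL(2, ℤ)) :
    (periodPoly m f γ).natDegree ≤ m - 1 :=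
  natDegree_periodPolyGen_le m _ γ

theorem coeff_periodPoly_of_le (m : ℕ) (f : ℍ → ℂ) (γ : SL(2, ℤ)) {j : ℕ} (hj : m ≤ j) :
    (periodPoly m f γ).coeff j = 0 :=
  coeff_periodPolyGen_of_le m _ γ hj

theorem periodPoly_add (f g : CuspForm (Gamma0 N) ((m : ℤ) + 1)) {γ : SL(2, ℤ)}
    (hγ : γ ∈ Gamma0 N) :
    periodPoly m (⇑(f + g)) γ = periodPoly m f γ + periodPoly m g γ := by
  unfold periodPoly
  rw [FunLike.coe_add, eichlerInt_add (exists_isEichler_cuspForm f) (exists_isEichler_cuspForm g)]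
  exact periodPolyGen_add m (isEichler_eichlerInt_cuspForm f).mdiff
    (isEichler_eichlerInt_cuspForm g).mdiff (iterate_D_eichlerInt_slash f hγ)
    (iterate_D_eichlerInt_slash g hγ)

theorem periodPoly_smul (c : ℂ) (f : CuspForm (Gamma0 N) ((m : ℤ) + 1)) {γ : SL(2, ℤ)}
    (hγ : γ ∈ Gamma0 N) :
    periodPoly m (⇑(c • f)) γ = c • periodPoly m f γ := by
  unfold periodPoly
  rw [FunLike.coe_smul, eichlerInt_smul c (exists_isEichler_cuspForm f)]
  exact periodPolyGen_smul m c (isEichler_eichlerInt_cuspForm f).mdiff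
    (iterate_D_eichlerInt_slash f hγ)

theorem periodPoly_one (m : ℕ) (f : ℍ → ℂ) : periodPoly m f 1 = 0 :=
  periodPolyGen_one m _

/-- The cocycle relation. -/
theorem periodPoly_mul (f : CuspForm (Gamma0 N) ((m : ℤ) + 1)) {γ δ : SL(2, ℤ)}
    (hγ : γ ∈ Gamma0 N) (hδ : δ ∈ Gamma0 N) :
    periodPoly m f (γ * δ) =
      polyAct (m - 1) (δ : Matrix (Fin 2) (Fin 2) ℤ) (periodPoly m f γ) + periodPoly m f δ :=
  periodPolyGen_mul m (isEichler_eichlerInt_cuspForm f).mdiff (iterate_D_eichlerInt_slash f hγ)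
    (iterate_D_eichlerInt_slash f hδ)

theorem periodPoly_eq_zero_iff (f : CuspForm (Gamma0 N) ((m : ℤ) + 1)) {γ : SL(2, ℤ)}
    (hγ : γ ∈ Gamma0 N) :
    periodPoly m f γ = 0 ↔ eichlerInt m f ∣[(1 : ℤ) - m] γ = eichlerInt m f :=
  periodPolyGen_eq_zero_iff m (isEichler_eichlerInt_cuspForm f).mdiff
    (iterate_D_eichlerInt_slash f hγ)

variable (N m) in
/-- The period functional `f ↦ (periodPoly m f γ).coeff j`. -/
def periodFunctional (γ : Gamma0 N) (j : ℕ) :
    Module.Dual ℂ (CuspForm (Gamma0 N) ((m : ℤ) + 1)) where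
  toFun f := (periodPoly m f γ).coeff j
  map_add' f g := by rw [periodPoly_add f g γ.2, coeff_add]
  map_smul' c f := by rw [periodPoly_smul c f γ.2, coeff_smul, RingHom.id_apply]

@[simp] theorem periodFunctional_apply (γ : Gamma0 N) (j : ℕ)
    (f : CuspForm (Gamma0 N) ((m : ℤ) + 1)) :
    periodFunctional N m γ j f = (periodPoly m f γ).coeff j := rfl

variable (N m) in
/-- The period lattice: the `ℤ`-span of the period functionals. -/
def periodLattice : Submodule ℤ (Module.Dual ℂ (CuspForm (Gamma0 N) ((m : ℤ) + 1))) :=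
  Submodule.span ℤ {l | ∃ γ ∈ Gamma0 N, ∃ j < m,
    ∀ f : CuspForm (Gamma0 N) ((m : ℤ) + 1), l f = (periodPoly m f γ).coeff j}

theorem periodFunctional_mem_periodLattice (γ : Gamma0 N) {j : ℕ} (hj : j < m) :
    periodFunctional N m γ j ∈ periodLattice N m :=
  Submodule.subset_span ⟨γ, γ.2, j, hj, fun _ => rfl⟩

theorem periodLattice_eq_span_range :
    periodLattice N m =
      Submodule.span ℤ {l | ∃ (γ : Gamma0 N) (j : Fin m), l = periodFunctional N m γ j} := by
  unfold periodLattice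
  congr 1
  ext l
  constructor
  · rintro ⟨γ, hγ, j, hj, h⟩
    exact ⟨⟨γ, hγ⟩, ⟨j, hj⟩, LinearMap.ext h⟩
  · rintro ⟨γ, j, rfl⟩
    exact ⟨γ, γ.2, j, j.2, fun _ => rfl⟩

/-- The period lattice separates `f` from `0` as soon as some period polynomial of `f` is
nonzero. -/
theorem periodPoly_eq_zero_of_forall_mem_periodLattice (f : CuspForm (Gamma0 N) ((m : ℤ) + 1))
    (h : ∀ l ∈ periodLattice N m, l f = 0) {γ : SL(2, ℤ)} (hγ : γ ∈ Gamma0 N) :
    periodPoly m f γ = 0 := by
  ext j
  rw [coeff_zero]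
  by_cases hj : j < m
  · exact h _ (periodFunctional_mem_periodLattice ⟨γ, hγ⟩ hj)
  · exact coeff_periodPoly_of_le m f γ (not_lt.mp hj)

/-- The period lattice is a finitely generated `ℤ`-module. -/
theorem periodLattice_fg : (periodLattice N m).FG := by
  rcases Nat.eq_zero_or_pos m with rfl | hm
  · have : periodLattice N 0 = ⊥ := by
      unfold periodLattice
      rw [Submodule.span_eq_bot]
      rintro l ⟨γ, -, j, hj, -⟩
      exact absurd hj (Nat.not_lt_zero j)
    rw [this]
    exact Submodule.fg_bot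
  obtain ⟨n, rfl⟩ : ∃ n, m = n + 1 := ⟨m - 1, by omega⟩
  have : Group.FG (Gamma0 N) := gamma0_fg N
  let c : Gamma0 N → Fin (n + 1) → Module.Dual ℂ (CuspForm (Gamma0 N) (((n + 1 : ℕ) : ℤ) + 1)) :=
    fun γ j => periodFunctional N (n + 1) γ j
  let ρ : Gamma0 N → Matrix (Fin (n + 1)) (Fin (n + 1)) ℤ :=
    fun γ => polyActMat n ((γ : SL(2, ℤ)) : Matrix (Fin 2) (Fin 2) ℤ)
  have h1 : c 1 = 0 := by
    ext j f
    simp only [c, periodFunctional_apply, Pi.zero_apply, LinearMap.zero_apply]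
    rw [show (((1 : Gamma0 N) : SL(2, ℤ))) = 1 from rfl, periodPoly_one, coeff_zero]
  have hc : ∀ γ δ, c (γ * δ) = intMulVec (ρ δ) (c γ) + c δ := by
    intro γ δ
    ext i f
    simp only [c, ρ, periodFunctional_apply, Pi.add_apply, LinearMap.add_apply, intMulVec_apply,
      LinearMap.sum_apply, LinearMap.smul_apply]
    rw [show (((γ * δ : Gamma0 N) : SL(2, ℤ))) = (γ : SL(2, ℤ)) * δ from rfl,
      periodPoly_mul f γ.2 δ.2, coeff_add, Nat.add_sub_cancel, coeff_polyAct]
    congr 1
    refine Finset.sum_congr rfl fun j _ => ?_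
    rw [zsmul_eq_mul]
  have := cocycle_span_fg ρ c h1 hc
  have hset : {l | ∃ (γ : Gamma0 N) (j : Fin (n + 1)), l = periodFunctional N (n + 1) γ j} =
      coordSet c Set.univ := by
    ext l
    constructor
    · rintro ⟨γ, j, rfl⟩
      exact ⟨γ, Set.mem_univ _, j, rfl⟩
    · rintro ⟨γ, -, j, rfl⟩
      exact ⟨γ, j, rfl⟩
  rw [periodLattice_eq_span_range, hset]
  exact this

end cusp

end

end Fermat.Agent.S22
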