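import Mathlib
import Fermat.Agent.S22.HeckePeriod
import Fermat.Agent.S22.Period

/-!
# S22, piece (F): the period lattice is stable under the Hecke operators `T_p`, `U_p`
-/

set_option autoImplicit false

open UpperHalfPlane hiding I
open Real Complex Derivative Polynomial CongruenceSubgroup ModularForm
open scoped Manifold MatrixGroups ModularForm Topology

namespace Fermat.Agent.S22

noncomputable section

/-! ## Upper triangular matrices acting on polynomial functions -/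

theorem hs_smul_polyFun_slash_heckeMatrix (m : ℕ) (hm : 1 ≤ m) {p : ℕ} (hp : p ≠ 0) (j : ℕ)
    (P : ℂ[X]) (hP : P.natDegree ≤ m - 1) :
    (p : ℂ) ^ m • ((fun z : ℍ => P.eval (z : ℂ)) ∣[(1 : ℤ) - m] heckeMatrix p j) =
      fun z : ℍ => (polyAct (m - 1) !![1, (j : ℤ); 0, (p : ℤ)] P).eval (z : ℂ) := by
  obtain ⟨n, rfl⟩ : ∃ n, m = n + 1 := ⟨m - 1, by omega⟩
  have hp' : (p : ℂ) ≠ 0 := by exact_mod_cast hp
  ext z
  have hz : (((!![1, (j : ℤ); 0, (p : ℤ)] : Matrix (Fin 2) (Fin 2) ℤ) 1 0 : ℤ) : ℂ) * (z : ℂ) +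
      (((!![1, (j : ℤ); 0, (p : ℤ)] : Matrix (Fin 2) (Fin 2) ℤ) 1 1 : ℤ) : ℂ) ≠ 0 := by
    simpa using hp'
  rw [Nat.add_sub_cancel] at hP ⊢
  rw [eval_polyAct_of_ne_zero n _ P hP _ hz, Pi.smul_apply, slash_heckeMatrix_apply _ hp,
    coe_heckeMatrix_smul hp]
  simp only [Matrix.of_apply, Matrix.cons_val', Matrix.cons_val_zero, Matrix.cons_val_one,
    Matrix.cons_val_fin_one, Int.cast_one, Int.cast_natCast, Int.cast_zero, one_mul, zero_mul,
    zero_add, smul_eq_mul]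
  rw [pow_succ]
  field_simp

theorem hs_smul_polyFun_slash_heckeDiagMatrix (m : ℕ) (hm : 1 ≤ m) {p : ℕ} (hp : p ≠ 0)
    (P : ℂ[X]) (hP : P.natDegree ≤ m - 1) :
    (p : ℂ) ^ m • ((fun z : ℍ => P.eval (z : ℂ)) ∣[(1 : ℤ) - m] heckeDiagMatrix p) =
      fun z : ℍ => (polyAct (m - 1) !![(p : ℤ), 0; 0, 1] P).eval (z : ℂ) := by
  obtain ⟨n, rfl⟩ : ∃ n, m = n + 1 := ⟨m - 1, by omega⟩
  have hp' : (p : ℂ) ≠ 0 := by exact_mod_cast hp
  ext z
  have hz : (((!![(p : ℤ), 0; 0, 1] : Matrix (Fin 2) (Fin 2) ℤ) 1 0 : ℤ) : ℂ) * (z : ℂ) +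
      (((!![(p : ℤ), 0; 0, 1] : Matrix (Fin 2) (Fin 2) ℤ) 1 1 : ℤ) : ℂ) ≠ 0 := by
    simp
  rw [Nat.add_sub_cancel] at hP ⊢
  rw [eval_polyAct_of_ne_zero n _ P hP _ hz, Pi.smul_apply, slash_heckeDiagMatrix_apply _ hp,
    coe_heckeDiagMatrix_smul hp]
  simp only [Matrix.of_apply, Matrix.cons_val', Matrix.cons_val_zero, Matrix.cons_val_one,
    Matrix.cons_val_fin_one, Int.cast_one, Int.cast_natCast, Int.cast_zero, zero_mul,
    zero_add, add_zero, smul_eq_mul, one_pow, mul_one, div_one]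
  rw [← mul_assoc, ← zpow_natCast, ← zpow_add₀ hp']
  have : ((n + 1 : ℕ) : ℤ) + ((1 : ℤ) - ((n + 1 : ℕ) : ℤ) - 1) = 0 := by ring
  rw [this, zpow_zero, one_mul]

/-! ## Generic stability lemma -/

section Generic

variable {N : ℕ} [NeZero N] {m : ℕ}

/-- If the period polynomials of `T f` are integral combinations (through `polyAct`) of period
polynomials of `f`, then the period lattice is stable under `T`. -/
theorem periodLattice_stable_of_rel (hm : 1 ≤ m)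
    (T : CuspForm (Gamma0 N) ((m : ℤ) + 1) →ₗ[ℂ] CuspForm (Gamma0 N) ((m : ℤ) + 1))
    (h : ∀ γ ∈ Gamma0 N, ∃ (ι : Type) (_ : Fintype ι) (g : ι → SL(2, ℤ))
      (A : ι → Matrix (Fin 2) (Fin 2) ℤ), (∀ x, g x ∈ Gamma0 N) ∧
      ∀ f : CuspForm (Gamma0 N) ((m : ℤ) + 1),
        periodPoly m (T f) γ = ∑ x, polyAct (m - 1) (A x) (periodPoly m f (g x)))
    (l : Module.Dual ℂ (CuspForm (Gamma0 N) ((m : ℤ) + 1))) (hl : l ∈ periodLattice N m) :
    l ∘ₗ T ∈ periodLattice N m := by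
  obtain ⟨n, rfl⟩ : ∃ n, m = n + 1 := ⟨m - 1, by omega⟩
  unfold periodLattice at hl
  induction hl using Submodule.span_induction with
  | mem l hl =>
    obtain ⟨γ, hγ, j, hj, hlf⟩ := hl
    obtain ⟨ι, _, g, A, hg, hrel⟩ := h γ hγ
    have key : l ∘ₗ T = ∑ x : ι, ∑ i : Fin (n + 1),
        polyActMat n (A x) ⟨j, hj⟩ i • periodFunctional N (n + 1) ⟨g x, hg x⟩ i := by
      ext f
      rw [LinearMap.comp_apply, hlf, hrel f, finsetSum_coeff, LinearMap.sum_apply]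
      refine Finset.sum_congr rfl fun x _ => ?_
      rw [LinearMap.sum_apply, Nat.add_sub_cancel]
      have := coeff_polyAct n (A x) (periodPoly (n + 1) f (g x)) ⟨j, hj⟩
      rw [this]
      refine Finset.sum_congr rfl fun i _ => ?_
      rw [LinearMap.smul_apply, periodFunctional_apply, zsmul_eq_mul]
    rw [key]
    refine Submodule.sum_mem _ fun x _ => Submodule.sum_mem _ fun i _ => ?_
    exact Submodule.smul_mem _ _ (periodFunctional_mem_periodLattice _ i.2)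
  | zero =>
    rw [LinearMap.zero_comp]
    exact Submodule.zero_mem _
  | add a b _ _ ha hb =>
    rw [LinearMap.add_comp]
    exact Submodule.add_mem _ ha hb
  | smul r a _ ha =>
    rw [LinearMap.smul_comp]
    exact Submodule.smul_mem _ r ha

end Generic

/-! ## The period relations for `T_p` and `U_p` -/

section Relations

open P2MW.S_ModularForm_heckeT_slash_eq_self_of_mem_Gamma0.ModularForm.HeckeSlashInvariance
open Matrix.SpecialLinearGroup

variable {N : ℕ} {m : ℕ}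

/-- The integer matrix of `heckeRep p y`. -/
def hsRepMat (p : ℕ) (y : OnePoint (ZMod p)) : Matrix (Fin 2) (Fin 2) ℤ :=
  y.elim !![(p : ℤ), 0; 0, 1] (fun j => !![1, (j.val : ℤ); 0, (p : ℤ)])

theorem hs_smul_polyFun_slash_heckeRep (m : ℕ) (hm : 1 ≤ m) {p : ℕ} (hp : p ≠ 0)
    (y : OnePoint (ZMod p)) (P : ℂ[X]) (hP : P.natDegree ≤ m - 1) :
    (p : ℂ) ^ m • ((fun z : ℍ => P.eval (z : ℂ)) ∣[(1 : ℤ) - m] heckeRep p y) =
      fun z : ℍ => (polyAct (m - 1) (hsRepMat p y) P).eval (z : ℂ) := by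
  induction y using OnePoint.rec with
  | infty => exact hs_smul_polyFun_slash_heckeDiagMatrix m hm hp P hP
  | coe j => exact hs_smul_polyFun_slash_heckeMatrix m hm hp j.val P hP

variable [NeZero N]

theorem eichlerInt_heckeTLin (f : CuspForm (Gamma0 N) ((m : ℤ) + 1)) {p : ℕ} (hp : p.Prime)
    (hpN : ¬ p ∣ N) :
    eichlerInt m ⇑(CuspForm.heckeTLin ((m : ℤ) + 1) hp hpN f) =
      (p : ℂ) ^ m • heckeT ((1 : ℤ) - m) p (eichlerInt m f) := by
  rw [CuspForm.coe_heckeTLin_apply]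
  exact (((isEichler_eichlerInt_cuspForm f).heckeT hp.ne_zero).eq_eichlerInt).symm

theorem eichlerInt_heckeULin (f : CuspForm (Gamma0 N) ((m : ℤ) + 1)) {p : ℕ} (hp : p ≠ 0)
    (hpN : p ∣ N) :
    eichlerInt m ⇑(CuspForm.heckeULin ((m : ℤ) + 1) hpN f) =
      (p : ℂ) ^ m • heckeU ((1 : ℤ) - m) p (eichlerInt m f) := by
  rw [CuspForm.coe_heckeULin_apply]
  exact (((isEichler_eichlerInt_cuspForm f).heckeU hp).eq_eichlerInt).symm

theorem degree_sum_polyAct_lt (hm : 1 ≤ m) {ι : Type} [Fintype ι]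
    (A : ι → Matrix (Fin 2) (Fin 2) ℤ) (P : ι → ℂ[X]) :
    (∑ x, polyAct (m - 1) (A x) (P x)).degree < m := by
  refine lt_of_le_of_lt degree_le_natDegree ?_
  have h1 : (∑ x, polyAct (m - 1) (A x) (P x)).natDegree ≤ m - 1 :=
    natDegree_sum_le_of_forall_le _ _ fun x _ => natDegree_polyAct_le (m - 1) (A x) (P x)
  have h2 : (∑ x, polyAct (m - 1) (A x) (P x)).natDegree < m := by omega
  exact_mod_cast h2

theorem periodPoly_heckeTLin (hm : 1 ≤ m) {p : ℕ} (hp : p.Prime) (hpN : ¬ p ∣ N)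
    {γ : SL(2, ℤ)} (hγ : γ ∈ Gamma0 N) :
    ∃ (ι : Type) (_ : Fintype ι) (g : ι → SL(2, ℤ)) (A : ι → Matrix (Fin 2) (Fin 2) ℤ),
      (∀ x, g x ∈ Gamma0 N) ∧ ∀ f : CuspForm (Gamma0 N) ((m : ℤ) + 1),
        periodPoly m (CuspForm.heckeTLin ((m : ℤ) + 1) hp hpN f) γ =
          ∑ x, polyAct (m - 1) (A x) (periodPoly m f (g x)) := by
  have : Fact p.Prime := ⟨hp⟩
  obtain ⟨g, hg, hrel⟩ := heckeT_slash_sub_eq_sum ((1 : ℤ) - m) hpN γ hγ
  refine ⟨OnePoint (ZMod p), inferInstance, g, fun x => hsRepMat p (redMatrix p γ • x), hg,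
    fun f => ?_⟩
  unfold periodPoly
  rw [eichlerInt_heckeTLin]
  apply periodPolyGen_eq_of_eval
  · exact degree_sum_polyAct_lt hm _ _
  · intro z
    have h1 : ((p : ℂ) ^ m • heckeT ((1 : ℤ) - m) p (eichlerInt m f)) ∣[(1 : ℤ) - m] γ -
        (p : ℂ) ^ m • heckeT ((1 : ℤ) - m) p (eichlerInt m f) =
        (p : ℂ) ^ m • (heckeT ((1 : ℤ) - m) p (eichlerInt m f) ∣[(1 : ℤ) - m] mapGL ℝ γ -
          heckeT ((1 : ℤ) - m) p (eichlerInt m f)) := by
      rw [SL_smul_slash, smul_sub]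
      rfl
    have h2 : ∀ x, (p : ℂ) ^ m • ((eichlerInt m f ∣[(1 : ℤ) - m] mapGL ℝ (g x) - eichlerInt m f)
        ∣[(1 : ℤ) - m] heckeRep p (redMatrix p γ • x)) =
        fun z : ℍ => (polyAct (m - 1) (hsRepMat p (redMatrix p γ • x))
          (periodPolyGen m (eichlerInt m f) (g x))).eval (z : ℂ) := by
      intro x
      have h3 : eichlerInt m f ∣[(1 : ℤ) - m] mapGL ℝ (g x) - eichlerInt m f =
          fun z : ℍ => (periodPoly m f (g x)).eval (z : ℂ) :=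
        funext (periodPoly_spec f (hg x)).2
      rw [h3]
      exact hs_smul_polyFun_slash_heckeRep m hm hp.ne_zero _ _ (natDegree_periodPoly_le m f (g x))
    rw [h1, hrel, Finset.smul_sum]
    simp only [h2]
    rw [Finset.sum_apply, eval_finsetSum]

theorem periodPoly_heckeULin (hm : 1 ≤ m) {p : ℕ} (hp : p ≠ 0) (hpN : p ∣ N)
    {γ : SL(2, ℤ)} (hγ : γ ∈ Gamma0 N) :
    ∃ (ι : Type) (_ : Fintype ι) (g : ι → SL(2, ℤ)) (A : ι → Matrix (Fin 2) (Fin 2) ℤ),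
      (∀ x, g x ∈ Gamma0 N) ∧ ∀ f : CuspForm (Gamma0 N) ((m : ℤ) + 1),
        periodPoly m (CuspForm.heckeULin ((m : ℤ) + 1) hpN f) γ =
          ∑ x, polyAct (m - 1) (A x) (periodPoly m f (g x)) := by
  have : NeZero p := ⟨hp⟩
  obtain ⟨g, σ, hg, hrel⟩ := heckeU_slash_sub_eq_sum ((1 : ℤ) - m) hpN γ hγ
  refine ⟨ZMod p, inferInstance, g, fun x => !![1, ((σ x).val : ℤ); 0, (p : ℤ)], hg,
    fun f => ?_⟩
  unfold periodPoly
  rw [eichlerInt_heckeULin f hp hpN]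
  apply periodPolyGen_eq_of_eval
  · exact degree_sum_polyAct_lt hm _ _
  · intro z
    have h1 : ((p : ℂ) ^ m • heckeU ((1 : ℤ) - m) p (eichlerInt m f)) ∣[(1 : ℤ) - m] γ -
        (p : ℂ) ^ m • heckeU ((1 : ℤ) - m) p (eichlerInt m f) =
        (p : ℂ) ^ m • (heckeU ((1 : ℤ) - m) p (eichlerInt m f) ∣[(1 : ℤ) - m] mapGL ℝ γ -
          heckeU ((1 : ℤ) - m) p (eichlerInt m f)) := by
      rw [SL_smul_slash, smul_sub]
      rfl
    have h2 : ∀ x, (p : ℂ) ^ m • ((eichlerInt m f ∣[(1 : ℤ) - m] mapGL ℝ (g x) - eichlerInt m f)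
        ∣[(1 : ℤ) - m] heckeMatrix p (σ x).val) =
        fun z : ℍ => (polyAct (m - 1) !![1, ((σ x).val : ℤ); 0, (p : ℤ)]
          (periodPolyGen m (eichlerInt m f) (g x))).eval (z : ℂ) := by
      intro x
      have h3 : eichlerInt m f ∣[(1 : ℤ) - m] mapGL ℝ (g x) - eichlerInt m f =
          fun z : ℍ => (periodPoly m f (g x)).eval (z : ℂ) :=
        funext (periodPoly_spec f (hg x)).2
      rw [h3]
      exact hs_smul_polyFun_slash_heckeMatrix m hm hp _ _ (natDegree_periodPoly_le m f (g x))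
    rw [h1, hrel, Finset.smul_sum]
    simp only [h2]
    rw [Finset.sum_apply, eval_finsetSum]

/-- **Hecke stability of the period lattice**, `T_p` for `p ∤ N`. -/
theorem periodLattice_heckeT_stable (hm : 1 ≤ m) {p : ℕ} (hp : p.Prime) (hpN : ¬ p ∣ N)
    (l : Module.Dual ℂ (CuspForm (Gamma0 N) ((m : ℤ) + 1))) (hl : l ∈ periodLattice N m) :
    l ∘ₗ CuspForm.heckeTLin ((m : ℤ) + 1) hp hpN ∈ periodLattice N m :=
  periodLattice_stable_of_rel hm _ (fun _ hγ => periodPoly_heckeTLin hm hp hpN hγ) l hl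

/-- **Hecke stability of the period lattice**, `U_p` for `p ∣ N`. -/
theorem periodLattice_heckeU_stable (hm : 1 ≤ m) {p : ℕ} (hp : p.Prime) (hpN : p ∣ N)
    (l : Module.Dual ℂ (CuspForm (Gamma0 N) ((m : ℤ) + 1))) (hl : l ∈ periodLattice N m) :
    l ∘ₗ CuspForm.heckeULin ((m : ℤ) + 1) hpN ∈ periodLattice N m :=
  periodLattice_stable_of_rel hm _ (fun _ hγ => periodPoly_heckeULin hm hp.ne_zero hpN hγ) l hl

end Relations

end

end Fermat.Agent.S22
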