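import Mathlib
import Fermat.Agent.S22.Defs
import Fermat.Agent.S22.Bol
import Fermat.Agent.S22.PolyOfDZero
import Fermat.Agent.S22.Unique
import Fermat.Agent.S22.Exist
import Fermat.Prelude.Thm_ModularForm_sturm_bound_Gamma0
import Fermat.Prelude.Thm_CongruenceSubgroup_one_mem_strictPeriods_Gamma0

set_option autoImplicit false

open UpperHalfPlane hiding I
open Real Complex Derivative Filter Function CongruenceSubgroup Polynomial
open scoped Manifold MatrixGroups ModularForm Topology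

/-!
# S22 (E): the period functionals separate points

If the Eichler integral `F` of a cusp form `f` of weight `m + 1 ≥ 2` on `Γ₀(N)` is invariant of
weight `1 - m` under `Γ₀(N)`, then `F` is bounded at every cusp (`F ∣ σ` differs from a decaying
Eichler integral of `f ∣ σ` by a periodic polynomial, i.e. a constant), hence is a modular form of
weight `≤ 0` vanishing at `i∞`, hence zero by the Sturm bound; so `f = 0`.
-/

namespace Fermat.Agent.S22

/-- Slashing by `T ^ n` is translation by `n`. -/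
theorem slash_T_zpow_apply (κ : ℤ) (G : ℍ → ℂ) (n : ℤ) (z : ℍ) :
    (G ∣[κ] (ModularGroup.T ^ n)) z = G ((n : ℝ) +ᵥ z) := by
  rw [ModularForm.SL_slash_apply, UpperHalfPlane.modular_T_zpow_smul, ModularGroup.denom_apply]
  simp [ModularGroup.coe_T_zpow]

theorem periodic_of_slash_T_zpow {κ : ℤ} {G : ℍ → ℂ} {n : ℤ}
    (hG : G ∣[κ] (ModularGroup.T ^ n) = G) : Periodic (G ∘ ofComplex) ((n : ℝ) : ℂ) := by
  intro w
  by_cases hw : 0 < im w
  · have hw' : 0 < im (w + ((n : ℝ) : ℂ)) := by simpa using hw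
    simp only [comp_apply, ofComplex_apply_of_im_pos hw', ofComplex_apply_of_im_pos hw]
    have := congrFun hG ⟨w, hw⟩
    rw [slash_T_zpow_apply] at this
    rw [← this]
    congr 1
    ext
    simp [add_comm]
  · have hw1 : im w ≤ 0 := not_lt.mp hw
    have hw' : im (w + ((n : ℝ) : ℂ)) ≤ 0 := by simpa using hw1
    simp only [comp_apply]
    rw [ofComplex_apply_of_im_nonpos hw', ofComplex_apply_of_im_nonpos hw1]

theorem conj_T_pow_mem_Gamma0 (N : ℕ) (σ : SL(2, ℤ)) :
    σ * ModularGroup.T ^ (N : ℤ) * σ⁻¹ ∈ Gamma0 N := by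
  have h1 : ModularGroup.T ^ (N : ℤ) ∈ CongruenceSubgroup.Gamma N := by
    simpa using ModularGroup_T_pow_mem_Gamma N N dvd_rfl
  have h2 := (Gamma_normal (N := N)).conj_mem _ h1 σ
  rw [Gamma_mem] at h2
  rw [Gamma0_mem]
  exact h2.2.2.1

theorem slash_conj_T_pow {κ : ℤ} {N : ℕ} {F : ℍ → ℂ}
    (hinv : ∀ γ ∈ Gamma0 N, F ∣[κ] γ = F) (σ : SL(2, ℤ)) :
    (F ∣[κ] σ) ∣[κ] (ModularGroup.T ^ (N : ℤ)) = F ∣[κ] σ := by
  have := hinv _ (conj_T_pow_mem_Gamma0 N σ)
  rw [← SlashAction.slash_mul]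
  have h3 : σ * ModularGroup.T ^ (N : ℤ) = (σ * ModularGroup.T ^ (N : ℤ) * σ⁻¹) * σ := by group
  rw [h3, SlashAction.slash_mul, this]

/-- A polynomial which is `h`-periodic on the upper half plane is constant. -/
theorem polynomial_eq_C_of_periodic (p : ℂ[X]) {h : ℝ} (hh : 0 < h)
    (hper : ∀ z : ℍ, p.eval ((z : ℂ) + h) = p.eval (z : ℂ)) : p = C (p.eval I) := by
  have key : ∀ n : ℕ, p.eval (I + n * h) = p.eval I := by
    intro n
    induction n with
    | zero => simp
    | succ n ih =>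
      have him : 0 < (I + n * h : ℂ).im := by simp
      have := hper ⟨_, him⟩
      rw [← ih, ← this]
      congr 1
      push_cast
      ring
  have hinj : Function.Injective (fun n : ℕ => (I + n * h : ℂ)) := by
    intro a b hab
    have := congrArg Complex.re hab
    simp at this
    rcases this with h1 | h1
    · exact_mod_cast h1
    · exact absurd h1 hh.ne'
  have hroots : Set.Infinite {x | (p - C (p.eval I)).IsRoot x} := by
    refine (Set.infinite_range_of_injective hinj).mono ?_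
    rintro _ ⟨n, rfl⟩
    simp [IsRoot, key n]
  exact sub_eq_zero.mp (Polynomial.eq_zero_of_infinite_isRoot _ hroots)

theorem det_mapGL_val (σ : SL(2, ℤ)) :
    (Matrix.SpecialLinearGroup.mapGL ℝ σ : GL (Fin 2) ℝ).val.det = 1 := by
  have := Matrix.SpecialLinearGroup.det_mapGL (S := ℝ) σ
  rw [← Matrix.GeneralLinearGroup.val_det_apply, this]
  rfl

theorem cuspForm_slash_SL_eq_self {N : ℕ} {k : ℤ} (f : CuspForm (Gamma0 N) k) (γ : SL(2, ℤ))
    (hγ : γ ∈ Gamma0 N) : (f : ℍ → ℂ) ∣[k] γ = f :=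
  SlashInvariantFormClass.slash_action_eq f (Matrix.SpecialLinearGroup.mapGL ℝ γ)
    (Subgroup.mem_map_of_mem _ hγ)

theorem isBoundedAtImInfty_slash_of_isEichler {N : ℕ} [NeZero N] {m : ℕ}
    (f : CuspForm (Gamma0 N) ((m : ℤ) + 1)) {F : ℍ → ℂ}
    (hF : IsEichler m f F) (hinv : ∀ γ ∈ Gamma0 N, F ∣[(1 : ℤ) - m] γ = F) (σ : SL(2, ℤ)) :
    IsBoundedAtImInfty (F ∣[(1 : ℤ) - m] σ) := by
  set H : ℍ → ℂ := F ∣[(1 : ℤ) - m] σ with hH
  have hHd : MDiff H := hF.mdiff.slash _ _
  set g : ℍ → ℂ := (f : ℍ → ℂ) ∣[(m : ℤ) + 1] σ with hg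
  have hDH : D^[m] H = g := by
    have hdet : ((σ : GL (Fin 2) ℝ)).val.det = 1 := det_mapGL_val σ
    have := bol_of_det_eq_one m hF.mdiff hdet
    rw [hF.iter] at this
    exact this
  have hgd : MDiff g := (CuspFormClass.holo f).slash _ _
  have hg0 : IsZeroAtImInfty g := CuspFormClass.zero_at_infty_slash f σ
  have hNpos : (0 : ℝ) < N := by exact_mod_cast Nat.pos_of_ne_zero (NeZero.ne N)
  have hgper : Periodic (g ∘ ofComplex) ((N : ℝ) : ℂ) := by
    have := periodic_of_slash_T_zpow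
      (slash_conj_T_pow (κ := (m : ℤ) + 1) (fun γ hγ => cuspForm_slash_SL_eq_self f γ hγ) σ)
    simpa using this
  obtain ⟨H₀, hH₀, hH₀per⟩ := exists_isEichler m hNpos hgd hgper hg0
  have hD0 : D^[m] (H - H₀) = 0 := by
    rw [iterate_D_sub hHd hH₀.mdiff, hDH, hH₀.iter, sub_self]
  obtain ⟨p, -, hp⟩ := exists_polynomial_of_iterate_D_eq_zero m (hHd.sub hH₀.mdiff) hD0
  have hHper : Periodic (H ∘ ofComplex) ((N : ℝ) : ℂ) := by
    have := periodic_of_slash_T_zpow (slash_conj_T_pow hinv σ)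
    simpa using this
  have hpper : ∀ z : ℍ, p.eval ((z : ℂ) + (N : ℝ)) = p.eval (z : ℂ) := by
    intro z
    have hz' : 0 < ((z : ℂ) + ((N : ℝ) : ℂ)).im := by simpa using z.im_pos
    have e1 := hp ⟨_, hz'⟩
    have e2 := hp z
    simp only [Pi.sub_apply] at e1 e2
    have a1 := hHper z
    have a2 := hH₀per z
    simp only [comp_apply, ofComplex_apply_of_im_pos hz', ofComplex_apply] at a1 a2
    rw [← e2, ← a1, ← a2]
    exact e1.symm
  have hpc := polynomial_eq_C_of_periodic p hNpos hpper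
  have hHeq : H = H₀ + fun _ => p.eval I := by
    ext z
    have := hp z
    rw [hpc] at this
    simp only [Pi.sub_apply, eval_C] at this
    simp only [Pi.add_apply]
    linear_combination this
  rw [hHeq]
  exact hH₀.zero_at.isBoundedAtImInfty.add (Filter.const_boundedAtFilter _ _)

theorem iterate_D_zero (m : ℕ) : D^[m] (0 : ℍ → ℂ) = 0 := by
  induction m with
  | zero => rfl
  | succ m ih =>
    rw [Function.iterate_succ_apply]
    have : D (0 : ℍ → ℂ) = 0 := normalizedDerivOfComplex_const 0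
    rw [this, ih]

/-- **(E) Separation.** If the Eichler integral `F` of a cusp form `f` of weight `m + 1 ≥ 2` on
`Γ₀(N)` is invariant of weight `1 - m` under `Γ₀(N)` (i.e. all period polynomials of `f` vanish),
then `f = 0`. -/
theorem eq_zero_of_forall_slash_eq (N : ℕ) [NeZero N] (m : ℕ) (hm : 1 ≤ m)
    (f : CuspForm (Gamma0 N) ((m : ℤ) + 1)) {F : ℍ → ℂ}
    (hF : IsEichler m f F) (hinv : ∀ γ ∈ Gamma0 N, F ∣[(1 : ℤ) - m] γ = F) : f = 0 := by
  let Fm : ModularForm (Gamma0 N) ((1 : ℤ) - m) :=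
    { toFun := F
      slash_action_eq' := by
        rintro γ ⟨γ', hγ', rfl⟩
        exact hinv γ' hγ'
      holo' := hF.mdiff
      bdd_at_cusps' := by
        intro c hc
        have hc' : IsCusp c 𝒮ℒ := (Subgroup.IsArithmetic.isCusp_iff_isCusp_SL2Z _).mp hc
        rw [OnePoint.isBoundedAt_iff_forall_SL2Z hc']
        intro σ _
        exact isBoundedAtImInfty_slash_of_isEichler f hF hinv σ }
  have hFmcoe : (Fm : ℍ → ℂ) = F := rfl
  have hFm0 : Fm = 0 := by
    apply ModularForm.sturm_bound_Gamma0 N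
    intro n hn
    have hle : ((1 : ℤ) - m) * ((Gamma0 N).index : ℤ) ≤ 0 :=
      mul_nonpos_of_nonpos_of_nonneg (by omega) (by positivity)
    have hn0 : n = 0 := by
      have : (((1 : ℤ) - m) * ((Gamma0 N).index : ℤ)).toNat = 0 := Int.toNat_of_nonpos hle
      rw [this] at hn
      simpa using hn
    subst hn0
    have hper : Periodic ((Fm : ℍ → ℂ) ∘ ofComplex) ((1 : ℝ) : ℂ) :=
      SlashInvariantFormClass.periodic_comp_ofComplex Fm
        (CongruenceSubgroup.one_mem_strictPeriods_Gamma0 N)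
    have han : AnalyticAt ℂ (cuspFunction 1 (Fm : ℍ → ℂ)) 0 :=
      analyticAt_cuspFunction_zero one_pos hper hF.mdiff hF.zero_at.isBoundedAtImInfty
    rw [qExpansion_coeff_zero one_pos han hper]
    exact hF.zero_at.valueAtInfty_eq_zero
  have hF0 : F = 0 := by
    rw [← hFmcoe, hFm0]
    rfl
  ext z
  have := congrFun hF.iter z
  rw [hF0, iterate_D_zero] at this
  simpa using this.symm

end Fermat.Agent.S22
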