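import Mathlib
import Fermat.Agent.S22.Cusp
import Fermat.Agent.S22.Period

/-!
# S22: the period lattice separates points

If every functional of the period lattice kills the cusp form `f` (of weight `m + 1 ≥ 2`), then all
period polynomials of `f` vanish, i.e. the Eichler integral of `f` is `Γ₀(N)`-invariant of weight
`1 - m`, hence `f = 0` by `eq_zero_of_forall_slash_eq`.
-/

set_option autoImplicit false

open UpperHalfPlane hiding I
open CongruenceSubgroup
open scoped Manifold MatrixGroups ModularForm Topology

namespace Fermat.Agent.S22

theorem periodLattice_separates (N : ℕ) [NeZero N] {m : ℕ} (hm : 1 ≤ m)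
    (f : CuspForm (Gamma0 N) ((m : ℤ) + 1)) (h : ∀ l ∈ periodLattice N m, l f = 0) : f = 0 :=
  eq_zero_of_forall_slash_eq N m hm f (isEichler_eichlerInt_cuspForm f) fun _ hγ =>
    (periodPoly_eq_zero_iff f hγ).mp (periodPoly_eq_zero_of_forall_mem_periodLattice f h hγ)

end Fermat.Agent.S22
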