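import Mathlib
import Fermat.Prelude.Def_CuspForm_HeckeAlgebra
import Fermat.Prelude.Thm_ModularForm_sturm_bound_Gamma0
import Fermat.Prelude.Thm_CongruenceSubgroup_one_mem_strictPeriods_Gamma0

/-!
# S22: the trivial weights

For `k ≤ 0` (Sturm bound) and for `k` odd (`-1 ∈ Γ₀(N)`) the space of cusp forms is zero, hence the
Hecke algebra is (the zero ring, and in particular) a finite `ℤ`-module.
-/

set_option autoImplicit false

namespace Fermat.Agent.S22

open CongruenceSubgroup UpperHalfPlane ModularFormClass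
open scoped MatrixGroups ModularForm

theorem cuspForm_eq_zero_of_nonpos (N : ℕ) [NeZero N] {k : ℤ} (hk : k ≤ 0)
    (f : CuspForm (Gamma0 N) k) : f = 0 := by
  have hper := CongruenceSubgroup.one_mem_strictPeriods_Gamma0 N
  have h0 : (qExpansion 1 f).coeff 0 = 0 :=
    CuspFormClass.qExpansion_coeff_zero f one_pos hper
  have key := ModularForm.sturm_bound_Gamma0 N (k := k)
    (ModularFormClass.modularForm f : ModularForm (Gamma0 N) k) ?_
  · ext z
    have := congrArg (fun g : ModularForm (Gamma0 N) k => g z) key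
    simpa using this
  · intro n hn
    have h1 : k * ((Gamma0 N).index : ℤ) ≤ 0 :=
      mul_nonpos_of_nonpos_of_nonneg hk (by positivity)
    have : n = 0 := by
      have : (k * ((Gamma0 N).index : ℤ)).toNat = 0 := Int.toNat_eq_zero.mpr h1
      rw [this] at hn
      simpa using hn
    subst this
    exact h0

theorem cuspForm_eq_zero_of_odd (N : ℕ) {k : ℤ} (hk : Odd k)
    (f : CuspForm (Gamma0 N) k) : f = 0 := by
  have hmem : (-1 : GL (Fin 2) ℝ) ∈ ((Gamma0 N : Subgroup SL(2, ℤ)) : Subgroup (GL (Fin 2) ℝ)) := by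
    refine ⟨-1, ?_, ?_⟩
    · rw [SetLike.mem_coe, Gamma0_mem]
      simp
    · ext i j
      fin_cases i <;> fin_cases j <;> simp
  have key := ModularForm.eq_zero_of_neg_one_mem hmem hk
    (ModularFormClass.modularForm f : ModularForm (Gamma0 N) k)
  ext z
  have := congrArg (fun g : ModularForm (Gamma0 N) k => g z) key
  simpa using this

theorem finite_heckeAlgebra_of_forall_eq_zero (N : ℕ) [NeZero N] (k : ℤ) (S : Set ℕ)
    (h : ∀ f : CuspForm (Gamma0 N) k, f = 0) :
    Module.Finite ℤ (CuspForm.heckeAlgebra N k S) := by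
  have : Subsingleton (CuspForm (Gamma0 N) k) := ⟨fun a b => by rw [h a, h b]⟩
  have : Subsingleton (Module.End ℂ (CuspForm (Gamma0 N) k)) :=
    ⟨fun a b => LinearMap.ext fun x => Subsingleton.elim _ _⟩
  have : Subsingleton (CuspForm.heckeAlgebra N k S) :=
    ⟨fun a b => Subtype.ext (Subsingleton.elim _ _)⟩
  infer_instance

end Fermat.Agent.S22
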