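import Fermat.Agent.S22.Abstract
import Fermat.Agent.S22.Trivial

/-!
# S22: assembly

`Module.Finite ℤ (heckeAlgebra N k S)` from a finitely generated, separating, Hecke-stable lattice
of functionals on the space of cusp forms of weight `k = m + 1`.
-/

set_option autoImplicit false

namespace Fermat.Agent.S22

open CongruenceSubgroup

theorem finite_heckeAlgebra_of_lattice (N : ℕ) [NeZero N] (k : ℤ) (S : Set ℕ)
    (Λ : Submodule ℤ (Module.Dual ℂ (CuspForm (Gamma0 N) k))) (hfg : Λ.FG)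
    (hsep : ∀ f : CuspForm (Gamma0 N) k, (∀ l ∈ Λ, l f = 0) → f = 0)
    (hT : ∀ (p : ℕ) (hp : p.Prime) (hpN : ¬ p ∣ N), ∀ l ∈ Λ,
      l ∘ₗ CuspForm.heckeTLin k hp hpN ∈ Λ)
    (hU : ∀ (p : ℕ) (hpN : p ∣ N), p.Prime → ∀ l ∈ Λ, l ∘ₗ CuspForm.heckeULin k hpN ∈ Λ) :
    Module.Finite ℤ (CuspForm.heckeAlgebra N k S) := by
  refine finite_adjoin_of_stable_lattice Λ hfg hsep (CuspForm.heckeGenerators N k S) ?_
  rintro T (⟨p, hp, hpN, -, rfl⟩ | ⟨q, hqN, hq, -, rfl⟩) l hl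
  · exact hT p hp hpN l hl
  · exact hU q hqN hq l hl

/-- Reduction of S22 to the main case `k = m + 1`, `1 ≤ m`. -/
theorem finite_heckeAlgebra_of_main
    (hmain : ∀ (N : ℕ) [NeZero N] (m : ℕ) (S : Set ℕ), 1 ≤ m →
      Module.Finite ℤ (CuspForm.heckeAlgebra N ((m : ℤ) + 1) S))
    (N : ℕ) [NeZero N] (k : ℤ) (S : Set ℕ) :
    Module.Finite ℤ (CuspForm.heckeAlgebra N k S) := by
  rcases le_or_gt k 0 with hk | hk
  · exact finite_heckeAlgebra_of_forall_eq_zero N k S (cuspForm_eq_zero_of_nonpos N hk)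
  · obtain ⟨m, rfl⟩ : ∃ m : ℕ, k = (m : ℤ) + 1 := ⟨(k - 1).toNat, by omega⟩
    rcases Nat.eq_zero_or_pos m with rfl | hm
    · exact finite_heckeAlgebra_of_forall_eq_zero N _ S
        (cuspForm_eq_zero_of_odd N (by simp))
    · exact hmain N m S hm

end Fermat.Agent.S22
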