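import Mathlib
import Fermat.Agent.S22.FG
import Fermat.Prelude.Thm_ModularForm_heckeT_slash_eq_self_of_mem_Gamma0

/-!
# S22, piece (F), coset bookkeeping half

For `g ∈ Γ₀(N)` and the Hecke representatives `α_x`: `α_x g = g'_x α_{σ x}` with `g'_x ∈ Γ₀(N)`
and `σ` a permutation (from the prelude). Consequences for the period functions
`F ∣[w] g - F` of an arbitrary function `F : ℍ → ℂ`, and the action of the upper triangular
Hecke matrices on polynomial functions.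
-/

set_option autoImplicit false

open UpperHalfPlane ModularForm Polynomial CongruenceSubgroup
open scoped MatrixGroups ModularForm OnePoint
open Matrix.SpecialLinearGroup (mapGL)
open P2MW.S_ModularForm_heckeT_slash_eq_self_of_mem_Gamma0.ModularForm.HeckeSlashInvariance

namespace Fermat.Agent.S22

theorem sub_slash (w : ℤ) (g : GL (Fin 2) ℝ) (F G : ℍ → ℂ) :
    (F - G) ∣[w] g = F ∣[w] g - G ∣[w] g := by
  rw [sub_eq_add_neg, SlashAction.add_slash, SlashAction.neg_slash, ← sub_eq_add_neg]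

/-- **Coset bookkeeping for `T_p`** (`p ∤ N`): the period function of `heckeT w p F` at
`g ∈ Γ₀(N)` is a sum of slashed period functions of `F`. -/
theorem heckeT_slash_sub {N p : ℕ} [hp : Fact p.Prime] (hpN : ¬ p ∣ N) (g : SL(2, ℤ))
    (hg : g ∈ Gamma0 N) :
    ∃ (g' : OnePoint (ZMod p) → SL(2, ℤ)) (σ : Equiv.Perm (OnePoint (ZMod p))),
      (∀ x, g' x ∈ Gamma0 N) ∧ ∀ (w : ℤ) (F : ℍ → ℂ),
        heckeT w p F ∣[w] (mapGL ℝ g) - heckeT w p F =
          ∑ x : OnePoint (ZMod p), (F ∣[w] (mapGL ℝ (g' x)) - F) ∣[w] heckeRep p (σ x) := by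
  have hcN : (N : ℤ) ∣ g 1 0 :=
    (ZMod.intCast_zmod_eq_zero_iff_dvd _ _).mp (Gamma0_mem.mp hg)
  choose g' hg'N hmul using fun x => heckeRep_mul hpN g hcN x
  refine ⟨g', MulAction.toPerm (redMatrix p g), fun x =>
    Gamma0_mem.mpr ((ZMod.intCast_zmod_eq_zero_iff_dvd _ _).mpr (hg'N x)), fun w F => ?_⟩
  have h1 : heckeT w p F ∣[w] (mapGL ℝ g) =
      ∑ x : OnePoint (ZMod p), (F ∣[w] (mapGL ℝ (g' x))) ∣[w] heckeRep p (redMatrix p g • x) := by
    rw [heckeT_eq_sum_onePoint w F, SlashAction.sum_slash]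
    refine Finset.sum_congr rfl fun x _ => ?_
    rw [← SlashAction.slash_mul, hmul x, SlashAction.slash_mul]
  have h2 : heckeT w p F =
      ∑ x : OnePoint (ZMod p), F ∣[w] heckeRep p (redMatrix p g • x) := by
    rw [heckeT_eq_sum_onePoint w F]
    exact (Equiv.sum_comp (MulAction.toPerm (redMatrix p g))
      (fun x => F ∣[w] heckeRep p x)).symm
  conv_lhs => rw [h1]
  conv_lhs => rw [h2]
  rw [← Finset.sum_sub_distrib]
  refine Finset.sum_congr rfl fun x _ => ?_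
  rw [sub_slash]
  rfl

/-- **Coset bookkeeping for `U_p`** (`p ∣ N`): the period function of `heckeU w p F` at
`g ∈ Γ₀(N)` is a sum of slashed period functions of `F`. -/
theorem heckeU_slash_sub {N p : ℕ} [NeZero p] (hpN : p ∣ N) (g : SL(2, ℤ))
    (hg : g ∈ Gamma0 N) :
    ∃ (g' : ZMod p → SL(2, ℤ)) (σ : Equiv.Perm (ZMod p)),
      (∀ x, g' x ∈ Gamma0 N) ∧ ∀ (w : ℤ) (F : ℍ → ℂ),
        heckeU w p F ∣[w] (mapGL ℝ g) - heckeU w p F =
          ∑ x : ZMod p, (F ∣[w] (mapGL ℝ (g' x)) - F) ∣[w] heckeMatrix p (σ x).val := by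
  have hcN : (N : ℤ) ∣ g 1 0 :=
    (ZMod.intCast_zmod_eq_zero_iff_dvd _ _).mp (Gamma0_mem.mp hg)
  have hc : (p : ℤ) ∣ g 1 0 := (Int.natCast_dvd_natCast.mpr hpN).trans hcN
  have hc0 : ((g 1 0 : ℤ) : ZMod p) = 0 := (ZMod.intCast_zmod_eq_zero_iff_dvd _ _).mpr hc
  choose g' hg'N hmul using fun x => heckeMatrix_mul_of_dvd g hc x
  refine ⟨g', affinePerm g hc0, fun x => ?_, fun w F => ?_⟩
  · rw [Gamma0_mem, hg'N x]
    push_cast
    rw [Gamma0_mem.mp hg, mul_zero]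
  have h1 : heckeU w p F ∣[w] (mapGL ℝ g) =
      ∑ x : ZMod p, (F ∣[w] (mapGL ℝ (g' x))) ∣[w] heckeMatrix p (affinePerm g hc0 x).val := by
    rw [heckeU_eq_sum_zmod w F, SlashAction.sum_slash]
    refine Finset.sum_congr rfl fun x _ => ?_
    rw [← SlashAction.slash_mul, hmul x, SlashAction.slash_mul]
  have h2 : heckeU w p F =
      ∑ x : ZMod p, F ∣[w] heckeMatrix p (affinePerm g hc0 x).val := by
    rw [heckeU_eq_sum_zmod w F]
    exact (Equiv.sum_comp (affinePerm g hc0)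
      (fun x => F ∣[w] heckeMatrix p x.val)).symm
  conv_lhs => rw [h1]
  conv_lhs => rw [h2]
  rw [← Finset.sum_sub_distrib]
  refine Finset.sum_congr rfl fun x _ => ?_
  rw [sub_slash]

/-- The function on `ℍ` defined by a polynomial. -/
def polyFun (P : ℂ[X]) : ℍ → ℂ := fun z => P.eval (z : ℂ)

@[simp] theorem polyFun_apply (P : ℂ[X]) (z : ℍ) : polyFun P z = P.eval (z : ℂ) := rfl

theorem polyFun_add (P Q : ℂ[X]) : polyFun (P + Q) = polyFun P + polyFun Q := by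
  ext z; simp

theorem polyFun_smul (c : ℂ) (P : ℂ[X]) : polyFun (c • P) = c • polyFun P := by
  ext z; simp

theorem polyFun_finset_sum {ι : Type*} (s : Finset ι) (P : ι → ℂ[X]) :
    polyFun (∑ i ∈ s, P i) = ∑ i ∈ s, polyFun (P i) := by
  ext z; simp [eval_finsetSum]

/-- **Slash action of an integer matrix of positive determinant on a polynomial function**,
weight `-n`, `deg P ≤ n`: `(det α)^(n+1) • (P ∣[-n] α) = polyAct n A P`. -/
theorem smul_slash_polyFun (n : ℕ) (A : Matrix (Fin 2) (Fin 2) ℤ) (α : GL (Fin 2) ℝ)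
    (hα : ∀ i j, (α : Matrix (Fin 2) (Fin 2) ℝ) i j = (A i j : ℝ)) (hdet : 0 < α.det.val)
    (P : ℂ[X]) (hP : P.natDegree ≤ n) :
    ((α.det.val : ℝ) : ℂ) ^ (n + 1) • (polyFun P ∣[-(n : ℤ)] α) = polyFun (polyAct n A P) := by
  ext z
  have hden : denom α z = (A 1 0 : ℂ) * z + (A 1 1 : ℂ) := by
    simp [denom, hα]
  have hnum : num α z = (A 0 0 : ℂ) * z + (A 0 1 : ℂ) := by
    simp [num, hα]
  have hz : (A 1 0 : ℂ) * z + (A 1 1 : ℂ) ≠ 0 := hden ▸ denom_ne_zero α z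
  have hdetne : ((α.det.val : ℝ) : ℂ) ≠ 0 := by
    exact_mod_cast hdet.ne'
  rw [Pi.smul_apply, smul_eq_mul, ModularForm.slash_apply, polyFun_apply, polyFun_apply,
    eval_polyAct_of_ne_zero n A P hP z hz, coe_smul_of_det_pos hdet, hnum, hden]
  have hσ : σ α = .refl ℝ ℂ := by rw [σ, if_pos hdet]
  rw [hσ, ContinuousAlgEquiv.refl_apply, abs_of_pos hdet, neg_neg, zpow_natCast]
  have h1 : (((α.det.val : ℝ) : ℂ)) ^ (-(n : ℤ) - 1) = ((((α.det.val : ℝ) : ℂ)) ^ (n + 1))⁻¹ := by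
    rw [← zpow_natCast, ← zpow_neg]
    congr 1
    push_cast
    ring
  rw [h1]
  field_simp

/-- Slash action of `γ ∈ SL(2, ℤ)` on polynomial functions (weight `-n`, `deg P ≤ n`). -/
theorem slash_polyFun_SL (n : ℕ) (γ : SL(2, ℤ)) (P : ℂ[X]) (hP : P.natDegree ≤ n) :
    polyFun P ∣[-(n : ℤ)] (mapGL ℝ γ) = polyFun (polyAct n (γ : Matrix (Fin 2) (Fin 2) ℤ) P) := by
  have hdet : (mapGL ℝ γ : GL (Fin 2) ℝ).det.val = 1 := by
    simp
  have := smul_slash_polyFun n (γ : Matrix (Fin 2) (Fin 2) ℤ) (mapGL ℝ γ) (fun i j => by simp)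
    (by rw [hdet]; exact one_pos) P hP
  rw [hdet] at this
  simpa using this

/-- The integer matrix of `heckeMatrix p j`. -/
def heckeMatrixInt (p j : ℕ) : Matrix (Fin 2) (Fin 2) ℤ := !![1, (j : ℤ); 0, (p : ℤ)]

/-- The integer matrix of `heckeDiagMatrix p`. -/
def heckeDiagMatrixInt (p : ℕ) : Matrix (Fin 2) (Fin 2) ℤ := !![(p : ℤ), 0; 0, 1]

/-- The integer matrix of `heckeRep p x`. -/
def heckeRepInt (p : ℕ) (x : OnePoint (ZMod p)) : Matrix (Fin 2) (Fin 2) ℤ :=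
  x.elim (heckeDiagMatrixInt p) (fun j => heckeMatrixInt p j.val)

theorem smul_slash_polyFun_heckeMatrix (n : ℕ) {p : ℕ} (hp : p ≠ 0) (j : ℕ) (P : ℂ[X])
    (hP : P.natDegree ≤ n) :
    (p : ℂ) ^ (n + 1) • (polyFun P ∣[-(n : ℤ)] heckeMatrix p j) =
      polyFun (polyAct n (heckeMatrixInt p j) P) := by
  have hdet : ((heckeMatrix p j).det : ℝ) = p := det_heckeMatrix hp j
  have := smul_slash_polyFun n (heckeMatrixInt p j) (heckeMatrix p j) (fun i k => by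
    rw [val_heckeMatrix hp]
    fin_cases i <;> fin_cases k <;> simp [heckeMatrixInt])
    (by rw [hdet]; exact_mod_cast Nat.pos_of_ne_zero hp) P hP
  rw [hdet] at this
  simpa using this

theorem smul_slash_polyFun_heckeDiagMatrix (n : ℕ) {p : ℕ} (hp : p ≠ 0) (P : ℂ[X])
    (hP : P.natDegree ≤ n) :
    (p : ℂ) ^ (n + 1) • (polyFun P ∣[-(n : ℤ)] heckeDiagMatrix p) =
      polyFun (polyAct n (heckeDiagMatrixInt p) P) := by
  have hdet : ((heckeDiagMatrix p).det : ℝ) = p := det_heckeDiagMatrix hp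
  have := smul_slash_polyFun n (heckeDiagMatrixInt p) (heckeDiagMatrix p) (fun i k => by
    rw [val_heckeDiagMatrix hp]
    fin_cases i <;> fin_cases k <;> simp [heckeDiagMatrixInt])
    (by rw [hdet]; exact_mod_cast Nat.pos_of_ne_zero hp) P hP
  rw [hdet] at this
  simpa using this

theorem smul_slash_polyFun_heckeRep (n : ℕ) {p : ℕ} (hp : p ≠ 0) (x : OnePoint (ZMod p))
    (P : ℂ[X]) (hP : P.natDegree ≤ n) :
    (p : ℂ) ^ (n + 1) • (polyFun P ∣[-(n : ℤ)] heckeRep p x) =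
      polyFun (polyAct n (heckeRepInt p x) P) := by
  induction x using OnePoint.rec with
  | infty => exact smul_slash_polyFun_heckeDiagMatrix n hp P hP
  | coe j => exact smul_slash_polyFun_heckeMatrix n hp j.val P hP

theorem polyFun_injective : Function.Injective polyFun := by
  intro P Q h
  apply Polynomial.eq_of_infinite_eval_eq
  have hinj : Function.Injective (fun n : ℕ => ((n : ℂ) + 1) * Complex.I) := by
    intro a b hab
    have h1 : ((a : ℂ) + 1) = (b : ℂ) + 1 := mul_right_cancel₀ Complex.I_ne_zero hab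
    exact_mod_cast add_right_cancel h1
  refine Set.infinite_of_injective_forall_mem hinj fun n => ?_
  have him : 0 < (((n : ℂ) + 1) * Complex.I).im := by
    simp
    positivity
  exact congrFun h ⟨_, him⟩

theorem smul_slash_of_det_pos (w : ℤ) (c : ℂ) (F : ℍ → ℂ) (α : GL (Fin 2) ℝ)
    (hα : 0 < α.det.val) : (c • F) ∣[w] α = c • (F ∣[w] α) := by
  rw [ModularForm.smul_slash, σ, if_pos hα, ContinuousAlgEquiv.refl_apply]

/-- **Period polynomials of the Hecke image, `T_p`**, weight `-n`. -/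
theorem period_heckeT {N p : ℕ} [hp : Fact p.Prime] (hpN : ¬ p ∣ N) (g : SL(2, ℤ))
    (hg : g ∈ Gamma0 N) :
    ∃ (g' : OnePoint (ZMod p) → SL(2, ℤ)) (A : OnePoint (ZMod p) → Matrix (Fin 2) (Fin 2) ℤ),
      (∀ x, g' x ∈ Gamma0 N) ∧ ∀ (n : ℕ) (F : ℍ → ℂ) (P : OnePoint (ZMod p) → ℂ[X]),
        (∀ x, (P x).natDegree ≤ n) →
        (∀ x, F ∣[-(n : ℤ)] (mapGL ℝ (g' x)) - F = polyFun (P x)) →
        ((p : ℂ) ^ (n + 1) • heckeT (-(n : ℤ)) p F) ∣[-(n : ℤ)] (mapGL ℝ g) -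
            (p : ℂ) ^ (n + 1) • heckeT (-(n : ℤ)) p F =
          polyFun (∑ x, polyAct n (A x) (P x)) := by
  obtain ⟨g', σ', hg', h⟩ := heckeT_slash_sub hpN g hg
  refine ⟨g', fun x => heckeRepInt p (σ' x), hg', fun n F P hP hF => ?_⟩
  have hp0 : p ≠ 0 := hp.out.ne_zero
  have hdet : 0 < (mapGL ℝ g : GL (Fin 2) ℝ).det.val := by simp
  rw [smul_slash_of_det_pos _ _ _ _ hdet, ← smul_sub, h, Finset.smul_sum, polyFun_finset_sum]
  refine Finset.sum_congr rfl fun x _ => ?_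
  rw [hF x]
  exact smul_slash_polyFun_heckeRep n hp0 (σ' x) (P x) (hP x)

/-- **Period polynomials of the Hecke image, `U_p`**, weight `-n`. -/
theorem period_heckeU {N p : ℕ} [NeZero p] (hpN : p ∣ N) (g : SL(2, ℤ))
    (hg : g ∈ Gamma0 N) :
    ∃ (g' : ZMod p → SL(2, ℤ)) (A : ZMod p → Matrix (Fin 2) (Fin 2) ℤ),
      (∀ x, g' x ∈ Gamma0 N) ∧ ∀ (n : ℕ) (F : ℍ → ℂ) (P : ZMod p → ℂ[X]),
        (∀ x, (P x).natDegree ≤ n) →
        (∀ x, F ∣[-(n : ℤ)] (mapGL ℝ (g' x)) - F = polyFun (P x)) →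
        ((p : ℂ) ^ (n + 1) • heckeU (-(n : ℤ)) p F) ∣[-(n : ℤ)] (mapGL ℝ g) -
            (p : ℂ) ^ (n + 1) • heckeU (-(n : ℤ)) p F =
          polyFun (∑ x, polyAct n (A x) (P x)) := by
  obtain ⟨g', σ', hg', h⟩ := heckeU_slash_sub hpN g hg
  refine ⟨g', fun x => heckeMatrixInt p (σ' x).val, hg', fun n F P hP hF => ?_⟩
  have hp0 : p ≠ 0 := NeZero.ne p
  have hdet : 0 < (mapGL ℝ g : GL (Fin 2) ℝ).det.val := by simp
  rw [smul_slash_of_det_pos _ _ _ _ hdet, ← smul_sub, h, Finset.smul_sum, polyFun_finset_sum]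
  refine Finset.sum_congr rfl fun x _ => ?_
  rw [hF x]
  exact smul_slash_polyFun_heckeMatrix n hp0 (σ' x).val (P x) (hP x)

/-! ### Versions indexed by `m = n + 1` (weight `1 - m`, polynomials of degree `< m`) -/

theorem one_sub_succ_cast (n : ℕ) : (1 : ℤ) - ((n + 1 : ℕ) : ℤ) = -(n : ℤ) := by
  push_cast; ring

theorem slash_polyFun_SL' (m : ℕ) (hm : 1 ≤ m) (γ : SL(2, ℤ)) (P : ℂ[X])
    (hP : P.natDegree < m) :
    polyFun P ∣[(1 : ℤ) - m] (mapGL ℝ γ) =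
      polyFun (polyAct (m - 1) (γ : Matrix (Fin 2) (Fin 2) ℤ) P) := by
  obtain ⟨n, rfl⟩ : ∃ n, m = n + 1 := ⟨m - 1, by omega⟩
  rw [one_sub_succ_cast, Nat.add_sub_cancel]
  exact slash_polyFun_SL n γ P (Nat.lt_succ_iff.mp hP)

theorem period_heckeT' {N p : ℕ} [hp : Fact p.Prime] (hpN : ¬ p ∣ N) (g : SL(2, ℤ))
    (hg : g ∈ Gamma0 N) :
    ∃ (g' : OnePoint (ZMod p) → SL(2, ℤ)) (A : OnePoint (ZMod p) → Matrix (Fin 2) (Fin 2) ℤ),
      (∀ x, g' x ∈ Gamma0 N) ∧ ∀ (m : ℕ), 1 ≤ m → ∀ (F : ℍ → ℂ) (P : OnePoint (ZMod p) → ℂ[X]),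
        (∀ x, (P x).natDegree < m) →
        (∀ x, F ∣[(1 : ℤ) - m] (mapGL ℝ (g' x)) - F = polyFun (P x)) →
        ((p : ℂ) ^ m • heckeT ((1 : ℤ) - m) p F) ∣[(1 : ℤ) - m] (mapGL ℝ g) -
            (p : ℂ) ^ m • heckeT ((1 : ℤ) - m) p F =
          polyFun (∑ x, polyAct (m - 1) (A x) (P x)) := by
  obtain ⟨g', A, hg', h⟩ := period_heckeT hpN g hg
  refine ⟨g', A, hg', fun m hm F P hP hF => ?_⟩
  obtain ⟨n, rfl⟩ : ∃ n, m = n + 1 := ⟨m - 1, by omega⟩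
  rw [one_sub_succ_cast] at hF ⊢
  rw [Nat.add_sub_cancel]
  exact h n F P (fun x => Nat.lt_succ_iff.mp (hP x)) hF

theorem period_heckeU' {N p : ℕ} [NeZero p] (hpN : p ∣ N) (g : SL(2, ℤ))
    (hg : g ∈ Gamma0 N) :
    ∃ (g' : ZMod p → SL(2, ℤ)) (A : ZMod p → Matrix (Fin 2) (Fin 2) ℤ),
      (∀ x, g' x ∈ Gamma0 N) ∧ ∀ (m : ℕ), 1 ≤ m → ∀ (F : ℍ → ℂ) (P : ZMod p → ℂ[X]),
        (∀ x, (P x).natDegree < m) →
        (∀ x, F ∣[(1 : ℤ) - m] (mapGL ℝ (g' x)) - F = polyFun (P x)) →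
        ((p : ℂ) ^ m • heckeU ((1 : ℤ) - m) p F) ∣[(1 : ℤ) - m] (mapGL ℝ g) -
            (p : ℂ) ^ m • heckeU ((1 : ℤ) - m) p F =
          polyFun (∑ x, polyAct (m - 1) (A x) (P x)) := by
  obtain ⟨g', A, hg', h⟩ := period_heckeU hpN g hg
  refine ⟨g', A, hg', fun m hm F P hP hF => ?_⟩
  obtain ⟨n, rfl⟩ : ∃ n, m = n + 1 := ⟨m - 1, by omega⟩
  rw [one_sub_succ_cast] at hF ⊢
  rw [Nat.add_sub_cancel]
  exact h n F P (fun x => Nat.lt_succ_iff.mp (hP x)) hF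

theorem smul_slash_polyFun_heckeMatrix' (m : ℕ) (hm : 1 ≤ m) {p : ℕ} (hp : p ≠ 0) (j : ℕ)
    (P : ℂ[X]) (hP : P.natDegree < m) :
    (p : ℂ) ^ m • (polyFun P ∣[(1 : ℤ) - m] heckeMatrix p j) =
      polyFun (polyAct (m - 1) (heckeMatrixInt p j) P) := by
  obtain ⟨n, rfl⟩ : ∃ n, m = n + 1 := ⟨m - 1, by omega⟩
  rw [one_sub_succ_cast, Nat.add_sub_cancel]
  exact smul_slash_polyFun_heckeMatrix n hp j P (Nat.lt_succ_iff.mp hP)

theorem smul_slash_polyFun_heckeDiagMatrix' (m : ℕ) (hm : 1 ≤ m) {p : ℕ} (hp : p ≠ 0)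
    (P : ℂ[X]) (hP : P.natDegree < m) :
    (p : ℂ) ^ m • (polyFun P ∣[(1 : ℤ) - m] heckeDiagMatrix p) =
      polyFun (polyAct (m - 1) (heckeDiagMatrixInt p) P) := by
  obtain ⟨n, rfl⟩ : ∃ n, m = n + 1 := ⟨m - 1, by omega⟩
  rw [one_sub_succ_cast, Nat.add_sub_cancel]
  exact smul_slash_polyFun_heckeDiagMatrix n hp P (Nat.lt_succ_iff.mp hP)

theorem smul_slash_polyFun_heckeRep' (m : ℕ) (hm : 1 ≤ m) {p : ℕ} (hp : p ≠ 0)
    (x : OnePoint (ZMod p)) (P : ℂ[X]) (hP : P.natDegree < m) :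
    (p : ℂ) ^ m • (polyFun P ∣[(1 : ℤ) - m] heckeRep p x) =
      polyFun (polyAct (m - 1) (heckeRepInt p x) P) := by
  obtain ⟨n, rfl⟩ : ∃ n, m = n + 1 := ⟨m - 1, by omega⟩
  rw [one_sub_succ_cast, Nat.add_sub_cancel]
  exact smul_slash_polyFun_heckeRep n hp x P (Nat.lt_succ_iff.mp hP)

end Fermat.Agent.S22
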