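import Mathlib
import Fermat.Agent.S22.Period

/-!
# S22, piece (F), final wrapper: from a period relation to stability of the period lattice

If an endomorphism `T` of the space of cusp forms satisfies, for every `γ ∈ Γ₀(N)`, a relation
`periodPoly m (T f) γ = ∑ i, polyAct (m - 1) (A i) (periodPoly m f (g i))` with `g i ∈ Γ₀(N)` and
integer matrices `A i` (independent of `f`), then `l ∘ T` lies in the period lattice for every `l`
in the period lattice.
-/

set_option autoImplicit false

open UpperHalfPlane hiding I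
open Real Complex Derivative Polynomial CongruenceSubgroup
open scoped Manifold MatrixGroups ModularForm Topology

namespace Fermat.Agent.S22

noncomputable section

variable {N : ℕ} [NeZero N] {m : ℕ}

/-- The coefficient functional of `polyAct (m - 1) A (periodPoly m f g)` lies in the lattice. -/
theorem coeff_polyAct_periodPoly_mem (A : Matrix (Fin 2) (Fin 2) ℤ) {g : SL(2, ℤ)}
    (hg : g ∈ Gamma0 N) (j : ℕ) (hj : j < m)
    (l : Module.Dual ℂ (CuspForm (Gamma0 N) ((m : ℤ) + 1)))
    (hl : ∀ f : CuspForm (Gamma0 N) ((m : ℤ) + 1),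
      l f = (polyAct (m - 1) A (periodPoly m f g)).coeff j) :
    l ∈ periodLattice N m := by
  obtain ⟨n, rfl⟩ : ∃ n, m = n + 1 := ⟨m - 1, by omega⟩
  have hl' : l = ∑ j' : Fin (n + 1),
      (polyActMat n A ⟨j, hj⟩ j') • periodFunctional N (n + 1) ⟨g, hg⟩ j' := by
    ext f
    rw [hl f, Nat.add_sub_cancel]
    have := coeff_polyAct n A (periodPoly (n + 1) f g) ⟨j, hj⟩
    simp only at this
    rw [this, LinearMap.sum_apply]
    refine Finset.sum_congr rfl fun j' _ => ?_
    rw [LinearMap.smul_apply, periodFunctional_apply, zsmul_eq_mul]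
  rw [hl']
  refine Submodule.sum_mem _ fun j' _ => ?_
  exact Submodule.smul_mem _ _ (periodFunctional_mem_periodLattice _ j'.2)

/-- **Stability of the period lattice** from a period relation (`Finset` version). -/
theorem comp_mem_periodLattice_of_relation_finset
    (T : CuspForm (Gamma0 N) ((m : ℤ) + 1) →ₗ[ℂ] CuspForm (Gamma0 N) ((m : ℤ) + 1))
    (hT : ∀ γ ∈ Gamma0 N, ∃ (ι : Type) (s : Finset ι) (g : ι → SL(2, ℤ))
      (A : ι → Matrix (Fin 2) (Fin 2) ℤ), (∀ i ∈ s, g i ∈ Gamma0 N) ∧
        ∀ f : CuspForm (Gamma0 N) ((m : ℤ) + 1),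
          periodPoly m (T f) γ = ∑ i ∈ s, polyAct (m - 1) (A i) (periodPoly m f (g i))) :
    ∀ l ∈ periodLattice N m, l ∘ₗ T ∈ periodLattice N m := by
  intro l hl
  unfold periodLattice at hl
  induction hl using Submodule.span_induction with
  | mem l hl =>
    obtain ⟨γ, hγ, j, hj, hlγ⟩ := hl
    obtain ⟨ι, s, g, A, hg, hrel⟩ := hT γ hγ
    classical
    -- the functionals `f ↦ (polyAct (m-1) (A i) (periodPoly m f (g i))).coeff j`
    let L : ι → Module.Dual ℂ (CuspForm (Gamma0 N) ((m : ℤ) + 1)) := fun i =>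
      if hi : i ∈ s then
        { toFun := fun f => (polyAct (m - 1) (A i) (periodPoly m f (g i))).coeff j
          map_add' := fun f f' => by
            rw [periodPoly_add f f' (hg i hi), polyAct_add, coeff_add]
          map_smul' := fun c f => by
            rw [periodPoly_smul c f (hg i hi), polyAct_smul, coeff_smul, RingHom.id_apply] }
      else 0
    have hL : ∀ i ∈ s, L i ∈ periodLattice N m := by
      intro i hi
      apply coeff_polyAct_periodPoly_mem (A i) (hg i hi) j hj
      intro f
      simp only [L, dif_pos hi]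
      rfl
    have hsum : l ∘ₗ T = ∑ i ∈ s, L i := by
      ext f
      rw [LinearMap.comp_apply, hlγ (T f), hrel f, finsetSum_coeff, LinearMap.sum_apply]
      refine Finset.sum_congr rfl fun i hi => ?_
      simp only [L, dif_pos hi]
      rfl
    rw [hsum]
    exact Submodule.sum_mem _ hL
  | zero =>
    rw [LinearMap.zero_comp]
    exact Submodule.zero_mem _
  | add l₁ l₂ _ _ h₁ h₂ =>
    rw [LinearMap.add_comp]
    exact Submodule.add_mem _ h₁ h₂
  | smul a l _ h =>
    rw [LinearMap.smul_comp]
    exact Submodule.smul_mem _ a h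

/-- **Stability of the period lattice** from a period relation (`Fintype` version). -/
theorem comp_mem_periodLattice_of_relation
    (T : CuspForm (Gamma0 N) ((m : ℤ) + 1) →ₗ[ℂ] CuspForm (Gamma0 N) ((m : ℤ) + 1))
    (hT : ∀ γ ∈ Gamma0 N, ∃ (ι : Type) (_ : Fintype ι) (g : ι → SL(2, ℤ))
      (A : ι → Matrix (Fin 2) (Fin 2) ℤ), (∀ i, g i ∈ Gamma0 N) ∧
        ∀ f : CuspForm (Gamma0 N) ((m : ℤ) + 1),
          periodPoly m (T f) γ = ∑ i, polyAct (m - 1) (A i) (periodPoly m f (g i))) :
    ∀ l ∈ periodLattice N m, l ∘ₗ T ∈ periodLattice N m := by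
  apply comp_mem_periodLattice_of_relation_finset T
  intro γ hγ
  obtain ⟨ι, _, g, A, hg, hrel⟩ := hT γ hγ
  exact ⟨ι, Finset.univ, g, A, fun i _ => hg i, hrel⟩

end

end Fermat.Agent.S22
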