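import Mathlib
import Fermat.Prelude.Thm_ModularForm_sturm_bound_Gamma0

/-!
# S22, end of piece (E): invariant functions of weight `≤ 0` vanishing at `i∞` are zero

A holomorphic function `F` on `ℍ` which is invariant of weight `w ≤ 0` under `Γ₀(N)`, bounded at all
cusps (i.e. `F ∣[w] σ` is bounded at `i∞` for all `σ ∈ SL(2, ℤ)`) and zero at `i∞` vanishes: it is a
modular form of non-positive weight with vanishing constant term, so the Sturm bound applies.
-/

set_option autoImplicit false

namespace Fermat.Agent.S22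

open UpperHalfPlane CongruenceSubgroup ModularForm OnePoint
open scoped MatrixGroups ModularForm Manifold

/-- The modular form attached to a holomorphic `Γ₀(N)`-invariant function bounded at all cusps. -/
noncomputable def modularFormOfBounded (N : ℕ) [NeZero N] (w : ℤ) (F : ℍ → ℂ) (hF : MDiff F)
    (hinv : ∀ γ ∈ Gamma0 N, F ∣[w] γ = F)
    (hbdd : ∀ σ : SL(2, ℤ), IsBoundedAtImInfty (F ∣[w] σ)) :
    ModularForm (Gamma0 N) w where
  toFun := F
  slash_action_eq' := by
    rintro _ ⟨γ, hγ, rfl⟩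
    exact hinv γ hγ
  holo' := hF
  bdd_at_cusps' := fun {c} hc => by
    rw [Subgroup.IsArithmetic.isCusp_iff_isCusp_SL2Z] at hc
    rw [isBoundedAt_iff_forall_SL2Z hc]
    intro γ _
    exact hbdd γ

theorem coe_modularFormOfBounded (N : ℕ) [NeZero N] (w : ℤ) (F : ℍ → ℂ) (hF : MDiff F)
    (hinv : ∀ γ ∈ Gamma0 N, F ∣[w] γ = F)
    (hbdd : ∀ σ : SL(2, ℤ), IsBoundedAtImInfty (F ∣[w] σ)) :
    ⇑(modularFormOfBounded N w F hF hinv hbdd) = F := rfl

theorem eq_zero_of_slash_invariant_of_bounded (N : ℕ) [NeZero N] {w : ℤ} (hw : w ≤ 0)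
    {F : ℍ → ℂ} (hF : MDiff F) (hinv : ∀ γ ∈ Gamma0 N, F ∣[w] γ = F)
    (hbdd : ∀ σ : SL(2, ℤ), IsBoundedAtImInfty (F ∣[w] σ)) (h0 : IsZeroAtImInfty F) :
    F = 0 := by
  have key := ModularForm.sturm_bound_Gamma0 N (k := w)
    (modularFormOfBounded N w F hF hinv hbdd) ?_
  · have := congrArg (fun g : ModularForm (Gamma0 N) w => (⇑g : ℍ → ℂ)) key
    simpa [coe_modularFormOfBounded] using this
  · intro n hn
    have h1 : w * ((Gamma0 N).index : ℤ) ≤ 0 :=
      mul_nonpos_of_nonpos_of_nonneg hw (by positivity)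
    have : n = 0 := by
      have : (w * ((Gamma0 N).index : ℤ)).toNat = 0 := Int.toNat_eq_zero.mpr h1
      rw [this] at hn
      simpa using hn
    subst this
    rw [coe_modularFormOfBounded, qExpansion_coeff]
    simp [h0.cuspFunction_apply_zero one_pos]

end Fermat.Agent.S22
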